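import Mathlib
import Fermat.Agent.S30Wiring

/-!
# The lattice form of the SUPPORT input and the annihilator comparison

`LatticeInput N p S`: a finitely generated free abelian group `P` with an action of the anemic
abstract Hecke algebra, faithful for the Hecke algebra of forms, such that every Hecke polynomial
killing `J₀(N)[pⁿ]` maps `P` into `pⁿP`.

`AnnInput N p S`: (up to a bounded shift) a Hecke polynomial killing `J₀(N)[pⁿ]` is divisible by
`pⁿ` in the Hecke algebra of forms.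
-/

set_option autoImplicit false
set_option linter.style.haveILetI false

open Polynomial

namespace Fermat.Agent.GAL.Lattice

open ModularCurve IsLocalRing Fermat.Agent.S30Wiring

/-! ### Algebra -/

theorem exists_saturation {E : Type*} [AddCommGroup E] [Module.Finite ℤ E] (B : AddSubgroup E)
    {p : ℕ} (hp : p.Prime) :
    ∃ r c : ℕ, ¬ p ∣ c ∧ ∀ (f : E) (k : ℕ), p ^ k • f ∈ B → (p ^ r * c) • f ∈ B := by
  let B' : Submodule ℤ E := AddSubgroup.toIntSubmodule B
  let M := E ⧸ B'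
  let T : Submodule ℤ M := Submodule.torsion ℤ M
  have hT : Module.IsTorsion ℤ T := Submodule.torsion_isTorsion
  have : Module.Finite ℤ T := inferInstance
  have hfin : Finite T := Module.finite_of_fg_torsion T hT
  have hcard : Nat.card T ≠ 0 := Nat.card_pos.ne'
  obtain ⟨r, c, hc, hrc⟩ := Nat.exists_eq_pow_mul_and_not_dvd hcard p hp.ne_one
  refine ⟨r, c, hc, fun f k hf => ?_⟩
  have h1 : p ^ k • (B'.mkQ f) = 0 := by
    rw [← map_nsmul]
    exact (Submodule.Quotient.mk_eq_zero B').mpr hf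
  have h2 : B'.mkQ f ∈ T := by
    rw [Submodule.mem_torsion_iff]
    refine ⟨⟨((p ^ k : ℕ) : ℤ), ?_⟩, ?_⟩
    · rw [mem_nonZeroDivisors_iff_ne_zero]
      exact_mod_cast pow_ne_zero k hp.ne_zero
    · show ((p ^ k : ℕ) : ℤ) • (B'.mkQ f) = 0
      rw [natCast_zsmul]
      exact h1
  have h3 : Nat.card T • (⟨B'.mkQ f, h2⟩ : T) = 0 := card_nsmul_eq_zero'
  have h4 : Nat.card T • (B'.mkQ f) = 0 := by
    simpa using congrArg Subtype.val h3
  rw [hrc, ← map_nsmul] at h4
  exact (Submodule.Quotient.mk_eq_zero B').mp h4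

theorem exists_shift {A : Type*} [CommRing A] (P : Type*) [AddCommGroup P] [Module A P]
    [Module.Finite ℤ P] [Module.Free ℤ P] {p : ℕ} (hp : p.Prime) :
    ∃ r c : ℕ, ¬ p ∣ c ∧ ∀ (n : ℕ) (a : A), (∀ x : P, ∃ y : P, a • x = p ^ (n + r) • y) →
      ∃ b : A, ∀ x : P, ((c : A) * a - (p : A) ^ n * b) • x = 0 := by
  let act : A →+* Module.End ℤ P := Module.toModuleEnd ℤ P
  have hact : ∀ a x, act a x = a • x := fun a x => rfl
  obtain ⟨r, c, hc, hsat⟩ := exists_saturation (E := Module.End ℤ P) act.toAddMonoidHom.range hp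
  refine ⟨r, c, hc, fun n a ha => ?_⟩
  choose y hy using ha
  let b := Module.Free.chooseBasis ℤ P
  let g : Module.End ℤ P := b.constr ℤ fun i => y (b i)
  have hg : act a = p ^ (n + r) • g := by
    refine b.ext fun i => ?_
    rw [hact, hy, LinearMap.smul_apply, Module.Basis.constr_basis]
  obtain ⟨b', hb'⟩ : (p ^ r * c) • g ∈ act.toAddMonoidHom.range :=
    hsat g (n + r) (by rw [← hg]; exact ⟨a, rfl⟩)
  refine ⟨b', fun x => ?_⟩
  have h1 : act ((c : A) * a - (p : A) ^ n * b') = 0 := by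
    have h2 : act b' = (p ^ r * c) • g := hb'
    have h3 : c • (p ^ (n + r) • g) = p ^ n • ((p ^ r * c) • g) := by
      rw [smul_smul, smul_smul]
      congr 1
      ring
    rw [map_sub, map_mul, map_mul, map_natCast, map_pow, map_natCast, h2, hg, sub_eq_zero,
      ← nsmul_eq_mul, h3, ← Nat.cast_pow, ← nsmul_eq_mul]
  rw [← hact, h1, LinearMap.zero_apply]

/-! ### The inputs -/

/-- The lattice form of the SUPPORT input. -/
def LatticeInput (N p : ℕ) [NeZero N] (S : Finset ℕ) : Prop :=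
  ∀ (hNS : ∀ q : ℕ, q.Prime → q ∣ N → q ∈ S),
    ∃ (P : Type) (_ : AddCommGroup P) (_ : Module (AnemicAlg S) P) (_ : Module.Finite ℤ P)
      (_ : Module.Free ℤ P),
      (∀ a : AnemicAlg S, (∀ x : P, a • x = 0) → anemicEval hNS a = 0) ∧
      ∀ (n : ℕ) (a : AnemicAlg S),
        (∀ x : JZero N, p ^ n • x = 0 → (letI := heckeModuleBar N; anemicIncl S a • x = 0)) →
          ∀ x : P, ∃ y : P, a • x = p ^ n • y

/-- The annihilator comparison. -/
def AnnInput (N p : ℕ) [NeZero N] (S : Finset ℕ) : Prop :=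
  ∀ (hNS : ∀ q : ℕ, q.Prime → q ∣ N → q ∈ S),
    ∃ r c : ℕ, ¬ p ∣ c ∧ ∀ (n : ℕ) (a : AnemicAlg S),
      (∀ x : JZero N, p ^ (n + r) • x = 0 →
        (letI := heckeModuleBar N; anemicIncl S a • x = 0)) →
        ∃ b : AnemicAlg S, (c : CuspForm.heckeAlgebra N 2 (↑S : Set ℕ)) * anemicEval hNS a =
          (p : CuspForm.heckeAlgebra N 2 (↑S : Set ℕ)) ^ n * anemicEval hNS b

theorem LatticeInput.annInput {N p : ℕ} [NeZero N] {S : Finset ℕ} (hp : p.Prime)
    (h : LatticeInput N p S) : AnnInput N p S := by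
  intro hNS
  obtain ⟨P, _, _, _, _, h1, h2⟩ := h hNS
  obtain ⟨r, c, hc, hr⟩ := exists_shift (A := AnemicAlg S) P hp
  refine ⟨r, c, hc, fun n a ha => ?_⟩
  obtain ⟨b, hb⟩ := hr n a (h2 (n + r) a ha)
  refine ⟨b, ?_⟩
  have h3 := h1 _ hb
  rw [map_sub, map_mul, map_mul, map_natCast, map_pow, map_natCast, sub_eq_zero] at h3
  exact h3

/-- If `a` kills `J[pⁿ]` then `a ^ k` kills `J[p^(nk)]`. -/
theorem pow_kills {A M : Type*} [CommRing A] [AddCommGroup M] [Module A M] {p n : ℕ} {a : A}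
    (h : ∀ x : M, p ^ n • x = 0 → a • x = 0) (k : ℕ) :
    ∀ x : M, p ^ (n * k) • x = 0 → a ^ k • x = 0 := by
  induction k with
  | zero =>
    intro x hx
    rw [mul_zero, pow_zero, one_smul] at hx
    rw [pow_zero, one_smul, hx]
  | succ k ih =>
    intro x hx
    have h1 : p ^ (n * k) • (p ^ n • x) = 0 := by
      rw [← mul_smul, ← pow_add, ← Nat.mul_succ, hx]
    have h2 : a ^ k • (p ^ n • x) = 0 := ih _ h1
    have h3 : p ^ n • (a ^ k • x) = 0 := by
      rw [← h2, smul_comm]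
    rw [pow_succ', mul_smul]
    exact h _ h3

/-- The annihilator comparison gives the exact support statement for characters with values in
discrete valuation rings. -/
theorem AnnInput.supportInput {N p : ℕ} [NeZero N] {S : Finset ℕ} (hp : p.Prime)
    (h : AnnInput N p S) : S30Wiring.SupportInput N p S := by
  intro hNS 𝒪 _ _ _ _ χ n a ha
  letI := heckeModuleBar N
  obtain ⟨r, c, hc, hr⟩ := h hNS
  by_cases hpu : IsUnit (p : 𝒪)
  · exact (hpu.pow n).dvd
  have hp0 : (p : 𝒪) ≠ 0 := Nat.cast_ne_zero.mpr hp.ne_zero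
  have hcu : IsUnit (c : 𝒪) := by
    have h1 : IsCoprime (p : ℤ) (c : ℤ) :=
      Nat.isCoprime_iff_coprime.mpr ((Nat.Prime.coprime_iff_not_dvd hp).mpr hc)
    obtain ⟨u, v, huv⟩ := h1
    have h2 : (u : 𝒪) * p + (v : 𝒪) * c = 1 := by exact_mod_cast congrArg (Int.cast : ℤ → 𝒪) huv
    rcases IsLocalRing.isUnit_or_isUnit_of_add_one h2 with h3 | h3
    · exact absurd (isUnit_of_mul_isUnit_right h3) hpu
    · exact isUnit_of_mul_isUnit_right h3
  rcases Nat.eq_zero_or_pos n with rfl | hn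
  · rw [pow_zero]; exact one_dvd _
  rcases eq_or_ne (χ (anemicEval hNS a)) 0 with h0 | h0
  · rw [h0]; exact dvd_zero _
  obtain ⟨ϖ, hϖ⟩ := IsDiscreteValuationRing.exists_irreducible 𝒪
  obtain ⟨w, hw⟩ := IsDiscreteValuationRing.associated_pow_irreducible hp0 hϖ
  obtain ⟨v, hv⟩ := IsDiscreteValuationRing.associated_pow_irreducible h0 hϖ
  have hϖ0 : ϖ ≠ 0 := hϖ.ne_zero
  have hpow : ∀ k l : ℕ, ϖ ^ k ∣ ϖ ^ l → k ≤ l := fun k l hkl =>
    (pow_dvd_pow_iff hϖ0 hϖ.not_isUnit).mp hkl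
  have hkey : ∀ k : ℕ, r ≤ n * k → w * (n * k - r) ≤ v * k := by
    intro k hk
    obtain ⟨b, hb⟩ := hr (n * k - r) (a ^ k) (by
      intro x hx
      rw [Nat.sub_add_cancel hk] at hx
      have h1 := pow_kills (A := HeckeAlg) (M := JZero N) (p := p) (n := n)
        (a := anemicIncl S a) ha k x hx
      rw [map_pow]
      exact h1)
    have h1 := congrArg χ hb
    rw [map_mul, map_mul, map_natCast, map_pow (anemicEval hNS), map_pow χ,
      map_pow χ, map_natCast] at h1
    have h2 : (p : 𝒪) ^ (n * k - r) ∣ χ (anemicEval hNS a) ^ k := by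
      have h3 : (p : 𝒪) ^ (n * k - r) ∣ (c : 𝒪) * χ (anemicEval hNS a) ^ k := ⟨_, h1⟩
      exact (hcu.dvd_mul_left).mp h3
    apply hpow
    rw [pow_mul, pow_mul]
    exact (((hw.pow_pow (n := n * k - r)).dvd_iff_dvd_left).mp
      (((hv.pow_pow (n := k)).dvd_iff_dvd_right).mp h2))
  have hle : w * n ≤ v := by
    by_contra hlt
    push Not at hlt
    have hw0 : 0 < w := Nat.pos_of_ne_zero fun h => by rw [h, zero_mul] at hlt; omega
    set k := r * w + 1 + r with hk
    have hrk : r ≤ n * k := by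
      calc r ≤ k := by omega
        _ ≤ n * k := Nat.le_mul_of_pos_left k hn
    have h1 := hkey k hrk
    rw [Nat.mul_sub] at h1
    have h2 : (v + 1) * k ≤ w * n * k := Nat.mul_le_mul_right k hlt
    have h3 : w * r ≤ w * (n * k) := Nat.mul_le_mul_left w hrk
    have h4 : w * (n * k) = w * n * k := by ring
    have h5 : (v + 1) * k = v * k + k := by ring
    have h6 : w * r = r * w := by ring
    omega
  have h1 : ϖ ^ (w * n) ∣ ϖ ^ v := pow_dvd_pow ϖ hle
  rw [pow_mul] at h1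
  exact ((hw.pow_pow (n := n)).dvd_iff_dvd_left).mpr ((hv.dvd_iff_dvd_right).mpr h1)

end Fermat.Agent.GAL.Lattice
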