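import Fermat.Agent.GAL.Inputs
import Fermat.Agent.EichlerShimura.S29FromES

/-!
# From the SUPPORT input to `EigenformSupport`, and S29 from `GalInput`
-/

set_option autoImplicit false

noncomputable section

open ModularCurve ModularFormClass

namespace Fermat.Agent.GAL

open EigenCharacter HeckeDuality

/-- A finite module whose annihilator is contained in a maximal ideal `𝔪` has nonzero
`𝔪`-torsion. -/
theorem exists_torsion_of_annihilator_le {R M : Type*} [CommRing R] [AddCommGroup M] [Module R M]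
    [Finite M] (𝔪 : Ideal R) [h𝔪 : 𝔪.IsMaximal] (h : Module.annihilator R M ≤ 𝔪) :
    ∃ x : M, x ≠ 0 ∧ ∀ t ∈ 𝔪, t • x = 0 := by
  have hprime : 𝔪.IsPrime := h𝔪.isPrime
  let P : Set (Submodule R M) := {N | ∀ r : R, (∀ x ∈ N, r • x = 0) → r ∈ 𝔪}
  have hP : (⊤ : Submodule R M) ∈ P := fun r hr =>
    h (Module.mem_annihilator.mpr fun m => hr m Submodule.mem_top)
  have hwf : WellFounded ((· < ·) : Submodule R M → Submodule R M → Prop) := wellFounded_lt
  obtain ⟨N₀, hN₀, hmin⟩ : ∃ N₀ ∈ P, ∀ N ∈ P, ¬ N < N₀ :=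
    ⟨hwf.min P ⟨⊤, hP⟩, hwf.min_mem P _, fun N hN => hwf.not_lt_min P hN⟩
  have hne : N₀ ≠ ⊥ := by
    rintro rfl
    exact (Ideal.ne_top_iff_one 𝔪).mp h𝔪.ne_top (hN₀ 1 fun x hx => by
      rw [(Submodule.mem_bot R).mp hx, smul_zero])
  have hkill : ∀ t ∈ 𝔪, ∀ x ∈ N₀, t • x = 0 := by
    intro t ht
    let τ : M →ₗ[R] M := LinearMap.lsmul R M t
    have hτ : ∀ x, τ x = t • x := fun x => rfl
    let K : Submodule R M := N₀ ⊓ LinearMap.ker τ
    let L : Submodule R M := N₀.map τ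
    have hL : L ≤ N₀ := by
      rintro _ ⟨x, hx, rfl⟩
      exact N₀.smul_mem t hx
    have hKL : K ∈ P ∨ L ∈ P := by
      by_contra hcon
      push Not at hcon
      obtain ⟨hK, hL'⟩ := hcon
      simp only [P, Set.mem_ofPred_eq, not_forall] at hK hL'
      obtain ⟨a, ha, ha'⟩ := hK
      obtain ⟨b, hb, hb'⟩ := hL'
      have hab : a * b ∈ 𝔪 := by
        refine hN₀ _ fun x hx => ?_
        rw [mul_smul]
        refine ha _ ⟨N₀.smul_mem b hx, ?_⟩
        show t • (b • x) = 0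
        rw [smul_comm]
        exact hb _ ⟨x, hx, rfl⟩
      rcases hprime.mem_or_mem hab with h | h
      · exact ha' h
      · exact hb' h
    rcases hKL with hK | hL'
    · have hKeq : K = N₀ := by
        by_contra hne'
        exact hmin K hK (lt_of_le_of_ne inf_le_left hne')
      intro x hx
      have : x ∈ K := by rw [hKeq]; exact hx
      exact this.2
    · exfalso
      have hLeq : L = N₀ := by
        by_contra hne'
        exact hmin L hL' (lt_of_le_of_ne hL hne')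
      have hle : N₀ ≤ 𝔪 • N₀ := by
        intro x hx
        rw [← hLeq] at hx
        obtain ⟨y, hy, rfl⟩ := hx
        exact Submodule.smul_mem_smul ht hy
      have hfg : N₀.FG := (IsNoetherian.noetherian N₀ : N₀.FG)
      obtain ⟨r, hr1, hr2⟩ :=
        Submodule.exists_sub_one_mem_and_smul_eq_zero_of_fg_of_le_smul 𝔪 N₀ hfg hle
      have hr3 : r ∈ 𝔪 := hN₀ r hr2
      have : (1 : R) ∈ 𝔪 := by
        have := 𝔪.sub_mem hr3 hr1
        rwa [sub_sub_cancel] at this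
      exact (Ideal.ne_top_iff_one 𝔪).mp h𝔪.ne_top this
  obtain ⟨x, hx, hx0⟩ := (Submodule.ne_bot_iff N₀).mp hne
  exact ⟨x, hx0, fun t ht => hkill t ht x hx⟩

/-- If `Ann(H) ≤ 𝔪`, `p ∈ 𝔪`, `H` f.g. over `ℤ`, then `(H/pH)[𝔪] ≠ 0`. -/
theorem exists_torsion_mod {R H : Type*} [CommRing R] [AddCommGroup H] [Module R H]
    [Module.Finite ℤ H] (𝔪 : Ideal R) [h𝔪 : 𝔪.IsMaximal] {p : ℕ} (hp : p ≠ 0) (hp𝔪 : (p : R) ∈ 𝔪)
    (h : ∀ t : R, (∀ x : H, t • x = 0) → t ∈ 𝔪) :
    ∃ x : H, (¬ ∃ y : H, x = p • y) ∧ ∀ t ∈ 𝔪, ∃ y : H, t • x = p • y := by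
  let pH : Submodule R H := LinearMap.range (LinearMap.lsmul R H (p : R))
  have hpH : ∀ x, x ∈ pH ↔ ∃ y, x = p • y := by
    intro x
    constructor
    · rintro ⟨y, rfl⟩
      exact ⟨y, by rw [LinearMap.lsmul_apply, Nat.cast_smul_eq_nsmul]⟩
    · rintro ⟨y, rfl⟩
      exact ⟨y, by rw [LinearMap.lsmul_apply, Nat.cast_smul_eq_nsmul]⟩
  have hfin : Finite (H ⧸ pH) := by
    have h1 : Module.Finite ℤ (H ⧸ pH) :=
      Module.Finite.of_surjective (pH.mkQ.restrictScalars ℤ) pH.mkQ_surjective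
    have h2 : ∀ x : H ⧸ pH, p • x = 0 := by
      intro x
      obtain ⟨y, rfl⟩ := pH.mkQ_surjective x
      rw [← map_nsmul]
      exact (Submodule.Quotient.mk_eq_zero pH).mpr ((hpH _).mpr ⟨y, rfl⟩)
    have : NeZero p := ⟨hp⟩
    let _ : Module (ZMod p) (H ⧸ pH) := AddCommGroup.zmodModule h2
    have h3 : Module.Finite (ZMod p) (H ⧸ pH) :=
      Module.Finite.of_restrictScalars_finite ℤ (ZMod p) (H ⧸ pH)
    have h4 : Finite (ZMod p) := inferInstance
    exact @Module.finite_of_finite (ZMod p) (H ⧸ pH) _ _ _ h4 h3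
  have hann : Module.annihilator R (H ⧸ pH) ≤ 𝔪 := by
    intro t ht
    rw [Module.mem_annihilator] at ht
    by_contra htm
    -- `H = 𝔪 H`
    obtain ⟨c, a, ha, hab⟩ := h𝔪.exists_inv htm
    have hle : (⊤ : Submodule R H) ≤ 𝔪 • (⊤ : Submodule R H) := by
      intro x _
      have h2 : x = a • x + c • (t • x) := by
        rw [← mul_smul, ← add_smul, add_comm, hab, one_smul]
      rw [h2]
      refine Submodule.add_mem _ (Submodule.smul_mem_smul ha Submodule.mem_top)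
        (Submodule.smul_mem _ c ?_)
      have h3 : t • x ∈ pH := by
        rw [← Submodule.Quotient.mk_eq_zero]
        exact ht (Submodule.Quotient.mk x)
      obtain ⟨y, hy⟩ := h3
      rw [← hy]
      exact Submodule.smul_mem_smul hp𝔪 Submodule.mem_top
    have hfg : (⊤ : Submodule R H).FG := by
      obtain ⟨s, hs⟩ := (Module.Finite.fg_top : (⊤ : Submodule ℤ H).FG)
      refine ⟨s, ?_⟩
      rw [eq_top_iff]
      intro x _
      have hx : x ∈ Submodule.span ℤ (s : Set H) := by rw [hs]; trivial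
      exact Submodule.span_induction (p := fun x _ => x ∈ Submodule.span R (s : Set H))
        (fun x hx => Submodule.subset_span hx) (Submodule.zero_mem _)
        (fun x y _ _ hx hy => Submodule.add_mem _ hx hy)
        (fun n x _ hx => by
          rw [← Int.cast_smul_eq_zsmul R n x]; exact Submodule.smul_mem _ _ hx) hx
    obtain ⟨r, hr1, hr2⟩ :=
      Submodule.exists_sub_one_mem_and_smul_eq_zero_of_fg_of_le_smul 𝔪 ⊤ hfg hle
    have hr3 : r ∈ 𝔪 := h r fun x => hr2 x Submodule.mem_top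
    have : (1 : R) ∈ 𝔪 := by
      have := 𝔪.sub_mem hr3 hr1
      rwa [sub_sub_cancel] at this
    exact (Ideal.ne_top_iff_one 𝔪).mp h𝔪.ne_top this
  obtain ⟨x, hx0, hx⟩ := exists_torsion_of_annihilator_le 𝔪 hann
  obtain ⟨y, rfl⟩ := pH.mkQ_surjective x
  refine ⟨y, fun hy => hx0 ((Submodule.Quotient.mk_eq_zero pH).mpr ((hpH y).mpr hy)),
    fun t ht => (hpH _).mp ?_⟩
  rw [← Submodule.Quotient.mk_eq_zero]
  exact hx t ht

/-- The kernel of the evaluation on forms is contained in every eigenform ideal. -/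
theorem mem_of_heckeEvalForms_eq_zero {N : ℕ} [NeZero N] {𝔪 : Ideal HeckeAlg}
    (h : IsEigenformIdeal N 𝔪) {t : HeckeAlg} (ht : CuspForm.heckeEvalForms N 2 t = 0) :
    t ∈ 𝔪 := by
  obtain ⟨f, hf, k, _, _, 𝒪, h𝒪, φ, rfl⟩ := h
  rw [mem_eigenIdeal_iff]
  -- evaluate in `𝒪`
  let e : HeckeAlg →+* 𝒪 := (MvPolynomial.aeval (R := ℤ) fun ℓ : Nat.Primes =>
    (⟨qCoeff f ℓ, h𝒪 ℓ⟩ : 𝒪)).toRingHom
  have h1 : (Subring.subtype 𝒪).comp e = (eigenChar hf).comp (CuspForm.heckeEvalForms N 2) := by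
    refine MvPolynomial.ringHom_ext (fun r => by simp) fun ℓ => ?_
    have h2 : CuspForm.heckeEvalForms N 2 (MvPolynomial.X ℓ) = gen N 2 ℓ.2 :=
      CuspForm.heckeEvalForms_heckeGen N 2 ℓ
    simp only [RingHom.comp_apply, h2, eigenChar_gen]
    simp [e]
  have h3 : e t = 0 := by
    apply Subtype.val_injective
    have := RingHom.congr_fun h1 t
    simp only [RingHom.comp_apply, ht, map_zero] at this
    exact this
  have h4 : φ.comp e = (MvPolynomial.aeval (R := ℤ) fun ℓ : Nat.Primes =>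
      φ (⟨qCoeff f ℓ, h𝒪 ℓ⟩ : 𝒪)).toRingHom := by
    refine MvPolynomial.ringHom_ext (fun r => by simp) fun ℓ => by simp [e]
  have h5 := RingHom.congr_fun h4 t
  simp only [RingHom.comp_apply, h3, map_zero] at h5
  exact h5.symm

theorem eigenIdeal_isMaximal {N : ℕ} {𝔪 : Ideal HeckeAlg} (h : IsEigenformIdeal N 𝔪) :
    𝔪.IsMaximal := by
  obtain ⟨f, hf, k, _, _, 𝒪, h𝒪, φ, rfl⟩ := h
  have hpr : (eigenIdeal (fun ℓ : Nat.Primes => φ ⟨qCoeff f ℓ, h𝒪 ℓ⟩)).IsPrime :=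
    RingHom.ker_isPrime _
  set 𝔪 := eigenIdeal (fun ℓ : Nat.Primes => φ ⟨qCoeff f ℓ, h𝒪 ℓ⟩) with h𝔪
  have hinj : Function.Injective (Ideal.Quotient.lift 𝔪
      (MvPolynomial.aeval (fun ℓ : Nat.Primes => φ ⟨qCoeff f ℓ, h𝒪 ℓ⟩) :
        HeckeAlg →ₐ[ℤ] k).toRingHom
      (fun x hx => (mem_eigenIdeal_iff _ x).mp hx)) := by
    rw [injective_iff_map_eq_zero]
    intro x hx
    obtain ⟨y, rfl⟩ := Ideal.Quotient.mk_surjective x
    rw [Ideal.Quotient.lift_mk] at hx
    exact Ideal.Quotient.eq_zero_iff_mem.mpr hx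
  have : Finite (HeckeAlg ⧸ 𝔪) := Finite.of_injective _ hinj
  exact Ideal.Quotient.maximal_of_isField 𝔪 (Finite.isField_of_domain _)

/-- SUPPORT input ⇒ the prelude's `EigenformSupport`. -/
theorem SupportInput.eigenformSupport {N p : ℕ} [NeZero N] (hp : p ≠ 0) {J : Type}
    [AddCommGroup J] [Module HeckeAlg J] (h : SupportInput N p J) :
    EigenformSupport p J (IsEigenformIdeal N) := by
  intro 𝔪 h𝔪 hp𝔪
  obtain ⟨H, _, _, _, _, Φ, hann, hker, -⟩ := h
  have hmax := eigenIdeal_isMaximal h𝔪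
  obtain ⟨x, hx1, hx2⟩ := exists_torsion_mod (H := H) 𝔪 hp hp𝔪 fun t ht =>
    mem_of_heckeEvalForms_eq_zero h𝔪 (hann t ht)
  intro hbot
  have hmem : Φ 1 x ∈ Submodule.torsionBySet HeckeAlg J (𝔪 : Set HeckeAlg) := by
    rw [Submodule.mem_torsionBySet_iff]
    rintro ⟨t, ht⟩
    show t • Φ 1 x = 0
    rw [← map_smul, hker]
    obtain ⟨y, hy⟩ := hx2 t ht
    exact ⟨y, by rw [pow_one]; exact hy⟩
  rw [hbot, Submodule.mem_bot, hker, pow_one] at hmem
  exact hx1 hmem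

theorem GalInputAt.esInput {N p : ℕ} [NeZero N] (hp : p ≠ 0) (h : GalInputAt N p) :
    S29FromES.ESInput N p := by
  obtain ⟨J, i1, i2, i3, i4, hJ⟩ := h
  exact ⟨J, i1, i2, i3, i4, hJ.smooth, ⟨hJ.unramified, hJ.frobenius, hJ.support.eigenformSupport hp⟩⟩

end Fermat.Agent.GAL
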