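import Mathlib
import Fermat.Agent.GAL.Lattice
import Fermat.Agent.GAL.Support
import Fermat.Agent.FrobeniusDensity

/-!
# S29 from the anemic inputs on `J₀(N)`
-/

set_option autoImplicit false
set_option linter.style.haveILetI false

noncomputable section

open Polynomial ModularCurve CongruenceSubgroup ModularFormClass

namespace Fermat.Agent.GAL.S29Anemic

open ResidualAttachment EigenCharacter HeckeDuality S29FromES S30Wiring
open _root_.Fermat.Agent.GAL.Lattice

local notation "Qbar" => AlgebraicClosure ℚ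
local notation "Γℚ" => (AlgebraicClosure ℚ ≃ₐ[ℚ] AlgebraicClosure ℚ)
local notation "ℤbar" => integralClosure ℤ ℂ

/-- helper31's Frobenius density theorem in the form used by `ResidualAttachment`. -/
theorem frobDensity : FrobDensity := by
  intro g L hL S
  obtain ⟨ℓ, hℓ, hℓS, A, σ, hA, hσ, ⟨k, hk⟩, -⟩ := Fermat.Agent.FrobDensity.frobenius_density L S g
  exact ⟨ℓ, hℓ, hℓS, A, hA, σ, hσ, k, hk⟩

/-! ### Twisting a Hecke module -/

/-- Kill the generators `X_ℓ`, `ℓ ∈ S`. -/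
def twist (S : Finset ℕ) : HeckeAlg →ₐ[ℤ] HeckeAlg :=
  MvPolynomial.aeval fun ℓ : Nat.Primes => if (ℓ : ℕ) ∈ S then 0 else MvPolynomial.X ℓ

/-- The projection onto the anemic algebra. -/
def proj (S : Finset ℕ) : HeckeAlg →ₐ[ℤ] AnemicAlg S :=
  MvPolynomial.aeval fun ℓ : Nat.Primes =>
    if h : (ℓ : ℕ) ∈ S then 0 else MvPolynomial.X ⟨ℓ, h⟩

theorem anemicIncl_proj (S : Finset ℕ) (t : HeckeAlg) : anemicIncl S (proj S t) = twist S t := by
  have : (anemicIncl S).comp (proj S) = twist S := by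
    refine MvPolynomial.algHom_ext fun ℓ => ?_
    rw [AlgHom.comp_apply, proj, twist, MvPolynomial.aeval_X, MvPolynomial.aeval_X]
    by_cases h : (ℓ : ℕ) ∈ S
    · rw [dif_pos h, if_pos h, map_zero]
    · rw [dif_neg h, if_neg h, anemicIncl, MvPolynomial.rename_X]
  exact congrArg (fun f => f t) this

theorem twist_gen {S : Finset ℕ} {ℓ : Nat.Primes} (h : (ℓ : ℕ) ∉ S) :
    twist S (heckeGen ℓ) = heckeGen ℓ := by
  rw [twist, heckeGen, MvPolynomial.aeval_X, if_neg h]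

/-- The module `J` with the Hecke action twisted by `twist S`. -/
@[nolint unusedArguments]
def Twisted (_S : Finset ℕ) (J : Type) : Type := J

section

variable (S : Finset ℕ) (J : Type)

instance [i : AddCommGroup J] : AddCommGroup (Twisted S J) := i

instance [AddCommGroup J] [i : DistribMulAction Γℚ J] : DistribMulAction Γℚ (Twisted S J) := i

instance instModuleTwisted [AddCommGroup J] [Module HeckeAlg J] : Module HeckeAlg (Twisted S J) :=
  Module.compHom J (twist S).toRingHom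


instance [AddCommGroup J] [Module HeckeAlg J] [DistribMulAction Γℚ J]
    [i : SMulCommClass Γℚ HeckeAlg J] : SMulCommClass Γℚ HeckeAlg (Twisted S J) :=
  ⟨fun g t x => i.smul_comm g (twist S t) x⟩

variable {S J}

theorem Twisted.smooth [AddCommGroup J] [DistribMulAction Γℚ J] (h : Smooth J) :
    Smooth (Twisted S J) := h

theorem Twisted.unramifiedOutside {N p : ℕ} [AddCommGroup J] [Module HeckeAlg J]
    [DistribMulAction Γℚ J] [SMulCommClass Γℚ HeckeAlg J]
    (h : UnramifiedOutside (K := ℚ) (L := Qbar) N p J) :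
    UnramifiedOutside (K := ℚ) (L := Qbar) N p (Twisted S J) := h

theorem Twisted.frobeniusQuadratic {N p : ℕ} [AddCommGroup J] [Module HeckeAlg J]
    [DistribMulAction Γℚ J] [SMulCommClass Γℚ HeckeAlg J]
    (hS : ∀ ℓ ∈ S, ℓ ∣ N * p)
    (h : FrobeniusQuadratic (K := ℚ) (L := Qbar) N p J) :
    FrobeniusQuadratic (K := ℚ) (L := Qbar) N p (Twisted S J) := by
  intro ℓ hℓ hℓNp A hA σ hσ x hx
  have h1 := h ℓ hℓ hℓNp A hA σ hσ x hx
  have h2 : twist S (heckeGen ⟨ℓ, hℓ⟩) = heckeGen ⟨ℓ, hℓ⟩ := twist_gen fun h' => hℓNp (hS _ h')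
  have h3 : (heckeGen ⟨ℓ, hℓ⟩ • (σ • x) : Twisted S J) =
      ((twist S (heckeGen ⟨ℓ, hℓ⟩)) • (show J from (σ • x)) : J) := rfl
  rw [h3, h2]
  exact h1

end

/-- **S29 from a smooth Galois–Hecke module** with a possibly modified (anemic) Hecke action: only
the operators `T_ℓ`, `ℓ ∤ Np`, matter. -/
theorem s29_core {N : ℕ} [NeZero N] {g : CuspForm (CongruenceSubgroup.Gamma0 N) 2}
    (hg : g.IsNormalizedEigenform) {p : ℕ} (hp : p.Prime)
    {J : Type} [AddCommGroup J] [Module HeckeAlg J] [DistribMulAction Γℚ J]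
    [SMulCommClass Γℚ HeckeAlg J] (hs : Smooth J)
    (hur : UnramifiedOutside (K := ℚ) (L := Qbar) N p J)
    (hfr : FrobeniusQuadratic (K := ℚ) (L := Qbar) N p J)
    (hsup : ∀ (k₀ : Type) [Field k₀] [Finite k₀] [CharP k₀ p]
      (χ₀ : CuspForm.heckeAlgebra N 2 ∅ →+* k₀),
      MTorsionNeBot HeckeAlg J (eigenIdeal fun ℓ : Nat.Primes =>
        if (ℓ : ℕ) ∈ (N * p).primeFactors then 0 else χ₀ (gen N 2 ℓ.2)))
    {k : Type} [Field k] [CharP k p] (φ : integralClosure ℤ ℂ →+* k) :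
    ∃ ρ : ResidualGaloisRep k, ρ.IsAttachedTo g φ ∧
      ∀ ℓ : ℕ, ℓ.Prime → ¬ ℓ ∣ N * p → ρ.IsUnramifiedAt ℓ := by
  have hN : N ≠ 0 := NeZero.ne N
  have hden := frobDensity
  -- the coefficient ring
  let χ := eigenChar hg
  let 𝒪 : Subring ℂ := χ.range
  have h𝒪 : ∀ ℓ : Nat.Primes, qCoeff g ℓ ∈ 𝒪 := fun ℓ => ⟨_, eigenChar_gen hg ℓ.2⟩
  have h𝒪int : ∀ x : 𝒪, IsIntegral ℤ (x : ℂ) := by
    rintro ⟨_, t, rfl⟩
    exact isIntegral_eigenChar hg t
  let j : 𝒪 →+* ℤbar :=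
    { toFun := fun x => ⟨x, h𝒪int x⟩
      map_one' := rfl
      map_zero' := rfl
      map_add' := fun _ _ => rfl
      map_mul' := fun _ _ => rfl }
  let φ₁ : 𝒪 →+* k := φ.comp j
  let k₀ : Subring k := φ₁.range
  let ψ : CuspForm.heckeAlgebra N 2 ∅ →+* k₀ := φ₁.rangeRestrict.comp χ.rangeRestrict
  have hfin : Finite k₀ := by
    have hψ : Function.Surjective ψ :=
      φ₁.rangeRestrict_surjective.comp χ.rangeRestrict_surjective
    have : Module.Finite ℤ k₀ := Module.Finite.of_surjective ψ.toIntAlgHom.toLinearMap hψ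
    have hchar : CharP k₀ p := (Subring.subtype k₀).charP Subtype.val_injective p
    let _ : Algebra (ZMod p) k₀ := ZMod.algebra _ p
    have : Module.Finite (ZMod p) k₀ := Module.Finite.of_restrictScalars_finite ℤ (ZMod p) k₀
    have : NeZero p := ⟨hp.ne_zero⟩
    exact Module.finite_of_finite (ZMod p)
  let _ : Field k₀ := (Finite.isField_of_domain k₀).toField
  have hchar : CharP k₀ p := (Subring.subtype k₀).charP Subtype.val_injective p
  have hψgen : ∀ ℓ : Nat.Primes, ((ψ (gen N 2 ℓ.2) : k₀) : k) = φ (j ⟨qCoeff g ℓ, h𝒪 ℓ⟩) := by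
    intro ℓ
    have : χ.rangeRestrict (gen N 2 ℓ.2) = (⟨qCoeff g ℓ, h𝒪 ℓ⟩ : 𝒪) :=
      Subtype.ext (eigenChar_gen hg ℓ.2)
    show φ₁ (χ.rangeRestrict (gen N 2 ℓ.2)) = _
    rw [this]
    rfl
  let a₀ : Nat.Primes → k₀ := fun ℓ =>
    if (ℓ : ℕ) ∈ (N * p).primeFactors then 0 else ψ (gen N 2 ℓ.2)
  let 𝔪 : Ideal HeckeAlg := eigenIdeal a₀
  have hp𝔪 : (p : HeckeAlg) ∈ 𝔪 := by
    rw [mem_eigenIdeal_iff, map_natCast]
    exact CharP.cast_eq_zero k₀ p
  have h𝔪max : 𝔪.IsMaximal := by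
    have hpr : 𝔪.IsPrime := RingHom.ker_isPrime _
    have hinj : Function.Injective (Ideal.Quotient.lift 𝔪
        (MvPolynomial.aeval a₀ : HeckeAlg →ₐ[ℤ] k₀).toRingHom
        (fun x hx => (mem_eigenIdeal_iff a₀ x).mp hx)) := by
      rw [injective_iff_map_eq_zero]
      intro x hx
      obtain ⟨y, rfl⟩ := Ideal.Quotient.mk_surjective x
      rw [Ideal.Quotient.lift_mk] at hx
      exact Ideal.Quotient.eq_zero_iff_mem.mpr hx
    have : Finite (HeckeAlg ⧸ 𝔪) := Finite.of_injective _ hinj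
    exact Ideal.Quotient.maximal_of_isField 𝔪 (Finite.isField_of_domain _)
  have hne : MTorsionNeBot HeckeAlg J 𝔪 := hsup k₀ ψ
  -- the algebraically closed field
  have hker : (RingHom.ker φ).IsMaximal := ker_isMaximal φ hp
  let F := ℤbar ⧸ RingHom.ker φ
  let _ : Field F := Ideal.Quotient.field _
  have : IsAlgClosed F := isAlgClosed_quotient (RingHom.ker φ)
  let i : F →+* k := RingHom.kerLift φ
  have hi : Function.Injective i := RingHom.kerLift_injective φ
  have hiF : ∀ x : ℤbar, i (Ideal.Quotient.mk _ x) = φ x := fun x => rfl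
  have hcharF : CharP F p := i.charP hi p
  let b₀ : Nat.Primes → F := fun ℓ => if (ℓ : ℕ) ∈ (N * p).primeFactors then 0 else
      (Ideal.Quotient.mk (RingHom.ker φ) (j ⟨qCoeff g ℓ, h𝒪 ℓ⟩) : F)
  let θ₁ : HeckeAlg →+* F := (MvPolynomial.aeval (R := ℤ) b₀).toRingHom
  have hcomp : i.comp θ₁ = (Subring.subtype k₀).comp (MvPolynomial.aeval (R := ℤ) a₀).toRingHom := by
    refine MvPolynomial.ringHom_ext (fun r => ?_) fun ℓ => ?_
    · simp [θ₁]
    · simp only [RingHom.comp_apply, AlgHom.toRingHom_eq_coe, RingHom.coe_coe, θ₁,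
        MvPolynomial.aeval_X]
      by_cases h : (ℓ : ℕ) ∈ (N * p).primeFactors
      · simp only [a₀, b₀, if_pos h, map_zero]
      · simp only [a₀, b₀, if_neg h, hiF]
        exact (hψgen ℓ).symm
  let θ : HeckeAlg ⧸ 𝔪 →+* F := Ideal.Quotient.lift 𝔪 θ₁ (by
    intro x hx
    apply hi
    have h1 : i (θ₁ x) = ((MvPolynomial.aeval (R := ℤ) a₀ x : k₀) : k) := RingHom.congr_fun hcomp x
    rw [h1, map_zero, (mem_eigenIdeal_iff a₀ x).mp hx]
    rfl)
  obtain ⟨M, hM1, hM2, hM3⟩ :=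
    exists_matrixRep_of_mTorsion (F := F) hden hp hN hs hur hfr 𝔪 hp𝔪 hne θ
  refine ⟨ofMatrixRep i M hM1, ?_, ?_⟩
  · intro ℓ hℓ hℓN hℓk A hA σ hσ
    have hℓNp : ¬ ℓ ∣ N * p := by
      intro h
      rcases hℓ.dvd_mul.mp h with h | h
      · exact hℓN h
      · rw [(Nat.prime_dvd_prime_iff_eq hℓ hp).mp h] at hℓk
        exact hℓk (CharP.cast_eq_zero k p)
    refine ⟨j ⟨qCoeff g ℓ, h𝒪 ⟨ℓ, hℓ⟩⟩, rfl, ?_⟩
    obtain ⟨h1, h2⟩ := hM3 ℓ hℓ hℓNp A hA σ hσ
    rw [charpoly_ofMatrixRep, h1, h2, map_natCast]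
    congr 3
    show C (i (θ₁ (heckeGen ⟨ℓ, hℓ⟩))) = _
    congr 1
    have h3 : θ₁ (heckeGen ⟨ℓ, hℓ⟩) = b₀ ⟨ℓ, hℓ⟩ := MvPolynomial.aeval_X _ _
    have h4 : b₀ ⟨ℓ, hℓ⟩ = Ideal.Quotient.mk (RingHom.ker φ) (j ⟨qCoeff g ℓ, h𝒪 ⟨ℓ, hℓ⟩⟩) :=
      if_neg fun h => hℓNp (Nat.dvd_of_mem_primeFactors h)
    rw [h3, h4, hiF]
  · intro ℓ hℓ hℓNp A hA σ hσ
    rw [ofMatrixRep_apply, hM2 ℓ hℓ hℓNp A hA σ hσ, map_one, Matrix.toLin'_one]
    rfl

/-- The inputs on `J₀(N)` used for S29, S30 and S31. -/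
structure GalInputs (N p : ℕ) [NeZero N] : Prop where
  galois_hecke : GaloisHeckeCommInput N
  specialization : SpecializationInput N p
  smooth : SmoothInput N
  finite : FiniteTorsionInput N p
  lattice : ∀ S : Finset ℕ, LatticeInput N p S

theorem GalInputs.inputs {N p : ℕ} [NeZero N] (hp : p.Prime) (h : GalInputs N p) (S : Finset ℕ) :
    S30Wiring.Inputs N p S where
  galois_hecke := h.galois_hecke
  specialization := h.specialization
  smooth := h.smooth
  finite := h.finite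
  support := ((h.lattice S).annInput hp).supportInput hp

/-- `J₀(N)[𝔪] ≠ 0` (anemic version). -/
theorem mTorsionNeBot {N p : ℕ} [NeZero N] (hp : p.Prime) (hfin : FiniteTorsionInput N p)
    (hann : AnnInput N p (N * p).primeFactors)
    (k₀ : Type) [Field k₀] [Finite k₀] [CharP k₀ p] (χ₀ : CuspForm.heckeAlgebra N 2 ∅ →+* k₀) :
    letI := heckeModuleBar N
    MTorsionNeBot HeckeAlg (Twisted (N * p).primeFactors (JZero N))
      (eigenIdeal fun ℓ : Nat.Primes =>
        if (ℓ : ℕ) ∈ (N * p).primeFactors then 0 else χ₀ (gen N 2 ℓ.2)) := by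
  letI := heckeModuleBar N
  set S : Finset ℕ := (N * p).primeFactors with hS
  have hNS : ∀ q : ℕ, q.Prime → q ∣ N → q ∈ S := fun q hq hqN =>
    Nat.mem_primeFactors.mpr ⟨hq, hqN.mul_right p, mul_ne_zero (NeZero.ne N) hp.ne_zero⟩
  obtain ⟨r, c, hc, hr⟩ := hann hNS
  let a₀ : Nat.Primes → k₀ := fun ℓ => if (ℓ : ℕ) ∈ S then 0 else χ₀ (gen N 2 ℓ.2)
  -- the composite character on the anemic algebra
  let ψ : CuspForm.heckeAlgebra N 2 (↑S : Set ℕ) →+* k₀ :=
    χ₀.comp (Subalgebra.inclusion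
      (CuspForm.heckeAlgebra_mono (N := N) (k := 2) (Set.empty_subset (↑S : Set ℕ)))).toRingHom
  have hψ : ∀ t : HeckeAlg, ψ (anemicEval hNS (proj S t)) = MvPolynomial.aeval a₀ t := by
    intro t
    have : (ψ.comp (anemicEval hNS).toRingHom).comp (proj S).toRingHom =
        (MvPolynomial.aeval (R := ℤ) a₀).toRingHom := by
      refine MvPolynomial.ringHom_ext (fun m => ?_) fun ℓ => ?_
      · simp
      · show ψ (anemicEval hNS (proj S (MvPolynomial.X ℓ))) = MvPolynomial.aeval a₀ (MvPolynomial.X ℓ)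
        rw [proj, MvPolynomial.aeval_X, MvPolynomial.aeval_X]
        by_cases h : (ℓ : ℕ) ∈ S
        · rw [dif_pos h, map_zero, map_zero]
          exact (if_pos h).symm
        · rw [dif_neg h, anemicEval, MvPolynomial.aeval_X]
          have h1 : a₀ ℓ = χ₀ (gen N 2 ℓ.2) := if_neg h
          rw [h1, gen, dif_neg (fun hN => h (hNS _ ℓ.2 hN))]
          rfl
    exact RingHom.congr_fun this t
  have hmax : (eigenIdeal a₀).IsMaximal := by
    have hpr : (eigenIdeal a₀).IsPrime := RingHom.ker_isPrime _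
    have hinj : Function.Injective (Ideal.Quotient.lift (eigenIdeal a₀)
        (MvPolynomial.aeval a₀ : HeckeAlg →ₐ[ℤ] k₀).toRingHom
        (fun x hx => (mem_eigenIdeal_iff a₀ x).mp hx)) := by
      rw [injective_iff_map_eq_zero]
      intro x hx
      obtain ⟨y, rfl⟩ := Ideal.Quotient.mk_surjective x
      rw [Ideal.Quotient.lift_mk] at hx
      exact Ideal.Quotient.eq_zero_iff_mem.mpr hx
    have : Finite (HeckeAlg ⧸ eigenIdeal a₀) := Finite.of_injective _ hinj
    exact Ideal.Quotient.maximal_of_isField _ (Finite.isField_of_domain _)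
  let J' := Twisted S (JZero N)
  let M : Submodule HeckeAlg J' := LinearMap.ker (LinearMap.lsmul HeckeAlg J' ((p ^ (1 + r) : ℕ) : HeckeAlg))
  have hM : ∀ x : J', x ∈ M ↔ p ^ (1 + r) • x = 0 := by
    intro x
    rw [LinearMap.mem_ker, LinearMap.lsmul_apply, Nat.cast_smul_eq_nsmul]
  have hMfin : Finite M := by
    have h1 := hfin (1 + r)
    refine (Set.Finite.subset h1 fun x hx => ?_ : (M : Set J').Finite)
    exact (hM x).mp hx
  have hle : Module.annihilator HeckeAlg M ≤ eigenIdeal a₀ := by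
    intro t ht
    rw [Module.mem_annihilator] at ht
    rw [mem_eigenIdeal_iff]
    obtain ⟨b, hb⟩ := hr 1 (proj S t) (by
      intro x hx
      have h1 := ht ⟨(show J' from x), (hM x).mpr hx⟩
      have h2 := congrArg Subtype.val h1
      rw [anemicIncl_proj]
      exact h2)
    have h1 := congrArg ψ hb
    rw [map_mul, map_mul, map_natCast, map_pow ψ, map_natCast, hψ, CharP.cast_eq_zero k₀ p, pow_one,
      zero_mul] at h1
    rcases mul_eq_zero.mp h1 with h2 | h2
    · exact absurd ((CharP.cast_eq_zero_iff k₀ p c).mp h2) hc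
    · exact h2
  obtain ⟨x, hx0, hx⟩ := exists_torsion_of_annihilator_le (eigenIdeal a₀) hle
  intro hbot
  have hmem : (x : J') ∈ Submodule.torsionBySet HeckeAlg J' (eigenIdeal a₀ : Set HeckeAlg) := by
    rw [Submodule.mem_torsionBySet_iff]
    rintro ⟨t, ht⟩
    exact congrArg Subtype.val (hx t ht)
  change Submodule.torsionBySet HeckeAlg J' (eigenIdeal a₀ : Set HeckeAlg) = ⊥ at hbot
  rw [hbot, Submodule.mem_bot] at hmem
  exact hx0 (Subtype.ext hmem)

/-- **S29 from the inputs** (`N ≠ 0`). -/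
theorem s29_of_galInputs_aux {N : ℕ} [NeZero N] {g : CuspForm (CongruenceSubgroup.Gamma0 N) 2}
    (hg : g.IsNormalizedEigenform) {p : ℕ} (hp : p.Prime) (I : GalInputs N p)
    {k : Type} [Field k] [CharP k p] (φ : integralClosure ℤ ℂ →+* k) :
    ∃ ρ : ResidualGaloisRep k, ρ.IsAttachedTo g φ ∧
      ∀ ℓ : ℕ, ℓ.Prime → ¬ ℓ ∣ N * p → ρ.IsUnramifiedAt ℓ := by
  letI := heckeModuleBar N
  haveI : SMulCommClass Γℚ HeckeAlg (JZero N) := I.galois_hecke
  have hspec : SpecializationExists (K := ℚ) (L := Qbar) N p (JZero N) :=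
    I.specialization I.galois_hecke
  have hunr := S30Wiring.unramifiedOutside_of_specialization hspec
  have hfrob := S30Wiring.frobeniusQuadratic_of_specialization hspec
  have hsm : Smooth (JZero N) := I.smooth
  exact s29_core (J := Twisted (N * p).primeFactors (JZero N)) hg hp (Twisted.smooth hsm)
    (Twisted.unramifiedOutside hunr)
    (Twisted.frobeniusQuadratic (fun ℓ h => Nat.dvd_of_mem_primeFactors h) hfrob)
    (fun k₀ _ _ _ χ₀ => mTorsionNeBot hp I.finite ((I.lattice _).annInput hp) k₀ χ₀) φ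

/-- **S29 from the inputs.** -/
theorem s29_of_galInputs (HI : ∀ (N p : ℕ) [NeZero N], p.Prime → GalInputs N p)
    {N : ℕ} {g : CuspForm (CongruenceSubgroup.Gamma0 N) 2} (hg : g.IsNormalizedEigenform)
    {p : ℕ} (hp : p.Prime) {k : Type} [Field k] [CharP k p] (φ : integralClosure ℤ ℂ →+* k) :
    ∃ ρ : ResidualGaloisRep k, ρ.IsAttachedTo g φ ∧
      ∀ ℓ : ℕ, ℓ.Prime → ¬ ℓ ∣ N * p → ρ.IsUnramifiedAt ℓ := by
  rcases eq_or_ne N 0 with rfl | hN
  · exact ⟨trivialRep k, fun ℓ _ h => absurd (dvd_zero ℓ) h,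
      fun ℓ _ h => absurd (by rw [zero_mul]; exact dvd_zero ℓ) h⟩
  have : NeZero N := ⟨hN⟩
  exact s29_of_galInputs_aux hg hp (HI N p hp) φ

end Fermat.Agent.GAL.S29Anemic
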