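import Mathlib
import Fermat.Prelude.Def_ModularCurve_ArithmeticGalois
import Fermat.Agent.QbarInst
import Fermat.Agent.FF.Basic

/-!
# Smoothness of the Galois action on places, divisors and divisor classes

Let `F₀ ⊂ ℚ((q))` be an intermediate field and `F = laurentBaseChange ℚbar F₀`.  Every element of
`F`, every place of `F`, every divisor and every class in `Pic0` is fixed by an open subgroup of
`G_ℚ` (assuming that elements of `F` have finitely many zeros, i.e. `HasPrincipalDivisors`).
-/

set_option autoImplicit false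

noncomputable section

open AlgebraicCurve ModularCurve IntermediateField

namespace Fermat.Agent.GAL.Smooth

local notation "Qbar" => AlgebraicClosure ℚ
local notation "Γℚ" => (AlgebraicClosure ℚ ≃ₐ[ℚ] AlgebraicClosure ℚ)

/-- `P g` holds for all `g` in some open subgroup `Gal(Qbar/L)`. -/
def OnOpen (P : Γℚ → Prop) : Prop :=
  ∃ L : IntermediateField ℚ Qbar, FiniteDimensional ℚ L ∧
    ∀ g : Γℚ, (∀ y ∈ L, g y = y) → P g

theorem OnOpen.mono {P Q : Γℚ → Prop} (h : OnOpen P) (hPQ : ∀ g, P g → Q g) : OnOpen Q := by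
  obtain ⟨L, hL, h⟩ := h
  exact ⟨L, hL, fun g hg => hPQ g (h g hg)⟩

theorem OnOpen.of_forall {P : Γℚ → Prop} (h : ∀ g, P g) : OnOpen P :=
  ⟨⊥, inferInstance, fun g _ => h g⟩

theorem OnOpen.and {P Q : Γℚ → Prop} (hP : OnOpen P) (hQ : OnOpen Q) :
    OnOpen fun g => P g ∧ Q g := by
  obtain ⟨L₁, hL₁, h₁⟩ := hP
  obtain ⟨L₂, hL₂, h₂⟩ := hQ
  refine ⟨L₁ ⊔ L₂, IntermediateField.finiteDimensional_sup L₁ L₂, fun g hg => ⟨?_, ?_⟩⟩
  · exact h₁ g fun y hy => hg y (le_sup_left (a := L₁) (b := L₂) hy)
  · exact h₂ g fun y hy => hg y (le_sup_right (a := L₁) (b := L₂) hy)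

theorem OnOpen.forall_finite {ι : Type*} [Finite ι] {P : ι → Γℚ → Prop}
    (h : ∀ i, OnOpen (P i)) : OnOpen fun g => ∀ i, P i g := by
  choose L hL h using h
  refine ⟨⨆ i, L i, ?_, fun g hg i => h i g fun y hy => hg y (le_iSup L i hy)⟩
  have := hL
  exact IntermediateField.finiteDimensional_iSup_of_finite

theorem OnOpen.forall_mem_finset {ι : Type*} {s : Finset ι} {P : ι → Γℚ → Prop}
    (h : ∀ i ∈ s, OnOpen (P i)) : OnOpen fun g => ∀ i ∈ s, P i g := by
  have := OnOpen.forall_finite (ι := s) (P := fun i => P i) fun i => h i i.2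
  exact this.mono fun g hg i hi => hg ⟨i, hi⟩

theorem OnOpen.forall_mem_set {ι : Type*} {s : Set ι} (hs : s.Finite) {P : ι → Γℚ → Prop}
    (h : ∀ i ∈ s, OnOpen (P i)) : OnOpen fun g => ∀ i ∈ s, P i g := by
  have : Finite s := hs
  have := OnOpen.forall_finite (ι := s) (P := fun i => P i) fun i => h i i.2
  exact this.mono fun g hg i hi => hg ⟨i, hi⟩

theorem onOpen_apply_eq (a : Qbar) : OnOpen fun g => g a = a := by
  refine ⟨IntermediateField.adjoin ℚ {a}, ?_, fun g hg =>
    hg a (IntermediateField.mem_adjoin_simple_self ℚ a)⟩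
  exact IntermediateField.adjoin.finiteDimensional (Algebra.IsIntegral.isIntegral a)

section Elements

variable {F₀ : IntermediateField ℚ (LaurentSeries ℚ)}

/-- Every element of `laurentBaseChange Qbar F₀` is fixed by an open subgroup. -/
theorem onOpen_coeffMap {x : LaurentSeries Qbar} (hx : x ∈ laurentBaseChange Qbar F₀) :
    OnOpen fun g => coeffMap (g : Qbar →+* Qbar) x = x := by
  rw [mem_laurentBaseChange_iff] at hx
  induction hx using Subfield.closure_induction with
  | mem y hy =>
    rcases hy with ⟨a, rfl⟩ | ⟨z, hz, rfl⟩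
    · refine (onOpen_apply_eq a).mono fun g hg => ?_
      rw [coeffMap_algebraMap]
      exact congrArg _ hg
    · exact OnOpen.of_forall fun g => coeffMap_coeffEmb g z
  | one => exact OnOpen.of_forall fun g => map_one _
  | add x y _ _ hx hy =>
    refine (hx.and hy).mono fun g hg => ?_
    rw [map_add, hg.1, hg.2]
  | neg x _ hx =>
    refine hx.mono fun g hg => ?_
    rw [map_neg, hg]
  | inv x _ hx =>
    refine hx.mono fun g hg => ?_
    rw [map_inv₀, hg]
  | mul x y _ _ hx hy =>
    refine (hx.and hy).mono fun g hg => ?_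
    rw [map_mul, hg.1, hg.2]

theorem onOpen_smul_eq (x : laurentBaseChange Qbar F₀) :
    OnOpen fun g => arithmeticGalois F₀ g • x = x :=
  (onOpen_coeffMap x.2).mono fun g hg => Subtype.ext (by
    rw [coe_arithmeticGalois_smul]; exact hg)

end Elements

section Places

open Fermat.FF

theorem exists_ord_pos_of_ne {K F : Type*} [Field K] [Field F] [Algebra K F] {v w : Place K F}
    (h : w ≠ v) : ∃ x : F, 0 < v.ord x ∧ w.ord x ≤ 0 := by
  by_contra hcon
  push Not at hcon
  apply h
  refine place_eq_of_le fun x hx => ?_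
  by_contra hxv
  have h1 : v.ord x < 0 := (not_mem_iff_ord v).mp hxv
  have h2 := hcon x⁻¹ (by rw [v.ord_inv]; omega)
  have h3 := ord_nonneg_of_mem w hx
  rw [w.ord_inv] at h2
  omega

variable {F₀ : IntermediateField ℚ (LaurentSeries ℚ)}
  [HasPrincipalDivisors Qbar (laurentBaseChange Qbar F₀)]

/-- Every place is fixed by an open subgroup. -/
theorem onOpen_place (v : Place Qbar (laurentBaseChange Qbar F₀)) :
    OnOpen fun g => arithmeticGalois F₀ g • v = v := by
  classical
  obtain ⟨u, hu⟩ := exists_ord_eq_one v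
  have hu0 : u ≠ 0 := ne_zero_of_ord_ne_zero v (by rw [hu]; exact one_ne_zero)
  obtain ⟨D, hD, -⟩ := HasPrincipalDivisors.exists_divisor (K := Qbar) u hu0
  have hex : ∀ w : Place Qbar (laurentBaseChange Qbar F₀),
      ∃ x : laurentBaseChange Qbar F₀, w ≠ v → 0 < v.ord x ∧ w.ord x ≤ 0 := by
    intro w
    by_cases hw : w = v
    · exact ⟨0, fun h => absurd hw h⟩
    · obtain ⟨x, hx⟩ := exists_ord_pos_of_ne hw
      exact ⟨x, fun _ => hx⟩
  choose z hz using hex
  have h1 : OnOpen fun g => ∀ w ∈ D.support, arithmeticGalois F₀ g • z w = z w :=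
    OnOpen.forall_mem_finset fun w _ => onOpen_smul_eq (z w)
  refine ((onOpen_smul_eq u).and h1).mono fun g hg => ?_
  obtain ⟨hgu, hgz⟩ := hg
  by_contra hne
  set w := arithmeticGalois F₀ g • v with hw
  have h2 : w.ord u = 1 := by
    have := SemilinearAut.ord_smul (arithmeticGalois F₀ g) v u
    rw [hgu] at this
    rw [hw, this, hu]
  have hwD : w ∈ D.support := by
    rw [Finsupp.mem_support_iff, hD w, h2]
    exact one_ne_zero
  have h3 := SemilinearAut.ord_smul (arithmeticGalois F₀ g) v (z w)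
  rw [hgz w hwD] at h3
  have h4 := hz w hne
  have h5 : w.ord (z w) = v.ord (z w) := h3
  omega

theorem onOpen_divisor (D : Divisor Qbar (laurentBaseChange Qbar F₀)) :
    OnOpen fun g => arithmeticGalois F₀ g • D = D := by
  classical
  have h1 : OnOpen fun g => ∀ v ∈ D.support, arithmeticGalois F₀ g • v = v :=
    OnOpen.forall_mem_finset fun v _ => onOpen_place v
  refine h1.mono fun g hg => ?_
  rw [SemilinearAut.divisor_smul_def]
  conv_rhs => rw [← Finsupp.mapDomain_id (v := D)]
  exact Finsupp.mapDomain_congr fun v hv => hg v hv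

theorem onOpen_pic0 (x : Pic0 Qbar (laurentBaseChange Qbar F₀)) :
    OnOpen fun g => g • x = x := by
  obtain ⟨D, rfl⟩ := Pic0.mk_surjective x
  refine (onOpen_divisor (D : Divisor Qbar (laurentBaseChange Qbar F₀))).mono fun g hg => ?_
  rw [galois_smul_pic0_def, SemilinearAut.pic0_smul_mk]
  refine congrArg Pic0.mk (Subtype.ext ?_)
  rw [SemilinearAut.coe_degZeroSMulHom]
  exact hg

end Places

/-- The Galois action on `J₀(N)(Qbar)` is smooth. -/
theorem smooth_JZero (N : ℕ) [HasPrincipalDivisors Qbar (modularFunctionFieldBar N)]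
    (x : JZero N) : ∃ L : IntermediateField ℚ Qbar, FiniteDimensional ℚ L ∧
      ∀ g : Γℚ, (∀ y ∈ L, g y = y) → g • x = x :=
  onOpen_pic0 x

/-- A finite set of points of `J₀(N)(Qbar)` is fixed pointwise by an open subgroup. -/
theorem smooth_JZero_of_finite (N : ℕ) [HasPrincipalDivisors Qbar (modularFunctionFieldBar N)]
    {s : Set (JZero N)} (hs : s.Finite) :
    ∃ L : IntermediateField ℚ Qbar, FiniteDimensional ℚ L ∧
      ∀ g : Γℚ, (∀ y ∈ L, g y = y) → ∀ x ∈ s, g • x = x :=
  OnOpen.forall_mem_set hs fun x _ => onOpen_pic0 x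

end Fermat.Agent.GAL.Smooth
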