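import Fermat.Agent.GAL.FiniteXN
import Fermat.Agent.GAL.S29Anemic
import Fermat.Agent.GAL.Smooth
import Fermat.Agent.Jan.GaloisHecke
import Fermat.Agent.S42Wiring
import Fermat.Agent.S31Lib.Final

/-!
# Team GAL: final assembly

From the main theorem of team JAN, S37, commutation of the Hecke operators and finiteness of
divisors, the inputs `GalInputs N p`, hence S29, S30, S31, S42 (verbatim).
-/

set_option autoImplicit false
set_option linter.style.haveILetI false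

open CongruenceSubgroup ModularCurve AlgebraicCurve
open scoped MatrixGroups

noncomputable section

namespace Fermat.Agent.GAL.Final

open HeckeHom HeckeCompare Fermat.Agent.JAN

local notation "Qbar" => AlgebraicClosure ℚ
local notation "Γℚ" => (AlgebraicClosure ℚ ≃ₐ[ℚ] AlgebraicClosure ℚ)

/-- The statement of S37. -/
def S37Prop : Prop :=
  ∀ (N p : ℕ) [NeZero N] (_ : HeckeOperatorsCommuteBar N), letI := heckeModuleBar N
    ∀ (_ : SMulCommClass (AlgebraicClosure ℚ ≃ₐ[ℚ] AlgebraicClosure ℚ) HeckeAlg (JZero N)),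
      SpecializationExists (K := ℚ) (L := AlgebraicClosure ℚ) N p (JZero N)

/-- All inputs. -/
structure AllInputs : Prop where
  comm : ∀ (N : ℕ) [NeZero N], HeckeOperatorsCommuteBar N
  hpd : ∀ (N : ℕ) [NeZero N], HasPrincipalDivisors Qbar (modularFunctionFieldBar N)
  jan : ∀ (N : ℕ) [NeZero N], JanMain N
  s37 : S37Prop

theorem galInputs (I : AllInputs) (N p : ℕ) [NeZero N] (hp : p.Prime) :
    S29Anemic.GalInputs N p where
  galois_hecke := Jan.GaloisHecke.smulCommClass_heckeModuleBar N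
  specialization := fun h => I.s37 N p (I.comm N) h
  smooth := fun x =>
    haveI := I.hpd N
    Smooth.smooth_JZero N x
  finite := fun n => (I.jan N).finite (pow_pos hp.pos n)
  lattice := fun S => latticeInput_of_homSupport hp.pos S ((I.jan N).homSupport (I.comm N))

theorem s29 (I : AllInputs)
    {N : ℕ} {g : CuspForm (CongruenceSubgroup.Gamma0 N) 2} (hg : g.IsNormalizedEigenform)
    {p : ℕ} (hp : p.Prime) {k : Type} [Field k] [CharP k p] (φ : integralClosure ℤ ℂ →+* k) :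
    ∃ ρ : ResidualGaloisRep k, ρ.IsAttachedTo g φ ∧
      ∀ ℓ : ℕ, ℓ.Prime → ¬ ℓ ∣ N * p → ρ.IsUnramifiedAt ℓ :=
  S29Anemic.s29_of_galInputs (fun N p _ hp => galInputs I N p hp) hg hp φ

theorem s30_inputs (I : AllInputs) (p : ℕ) [Fact p.Prime] (N : ℕ) [NeZero N] (S : Finset ℕ) :
    S30Wiring.Inputs N p S :=
  (galInputs I N p Fact.out).inputs Fact.out S

open Polynomial in
theorem s30 (I : AllInputs) :
    ∀ (p : ℕ) [Fact p.Prime] (N : ℕ) [NeZero N] (S : Finset ℕ)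
      (_hpS : p ∈ S) (_hNS : ∀ q : ℕ, q.Prime → q ∣ N → q ∈ S)
      (𝒪' : Type) [CommRing 𝒪'] [IsDomain 𝒪'] [IsDiscreteValuationRing 𝒪']
      [IsAdicComplete (IsLocalRing.maximalIdeal 𝒪') 𝒪'] [Finite (IsLocalRing.ResidueField 𝒪')]
      [CharZero 𝒪'] (_hp𝒪' : (p : 𝒪') ∈ IsLocalRing.maximalIdeal 𝒪')
      (χ : CuspForm.heckeAlgebra N 2 (↑S : Set ℕ) →+* 𝒪'),
      ∃ (𝒪'' : Type) (_ : CommRing 𝒪'') (_ : IsDomain 𝒪'') (_ : IsDiscreteValuationRing 𝒪'')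
        (_ : IsAdicComplete (IsLocalRing.maximalIdeal 𝒪'') 𝒪'')
        (_ : Finite (IsLocalRing.ResidueField 𝒪'')) (_ : CharZero 𝒪'')
        (_ : Algebra 𝒪' 𝒪'') (_ : Module.Finite 𝒪' 𝒪'') (_ : IsLocalHom (algebraMap 𝒪' 𝒪'')),
      Function.Injective (algebraMap 𝒪' 𝒪'') ∧
      ∃ ρ : GaloisRepAdic 𝒪'',
        (∀ (ℓ : ℕ) (hℓ : ℓ.Prime) (hℓN : ¬ ℓ ∣ N) (hℓS : ℓ ∉ (↑S : Set ℕ)),
          ∀ A : ValuationSubring (AlgebraicClosure ℚ), A.LiesOverPrime ℓ →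
            ∀ σ : AlgebraicClosure ℚ ≃ₐ[ℚ] AlgebraicClosure ℚ, A.IsFrobeniusAt σ ℓ →
              LinearMap.charpoly (ρ.ρ σ) =
                X ^ 2 - C (algebraMap 𝒪' 𝒪'' (χ (CuspForm.heckeAlgebra.T hℓ hℓN hℓS))) * X
                  + C ((ℓ : 𝒪''))) ∧
        (∀ q : ℕ, q.Prime → ¬ q ∣ N → q ≠ p → ρ.IsUnramifiedAt q) :=
  S30Wiring.s30_of_inputs fun p _ N _ S _ _ => s30_inputs I p N S

theorem s31 (I : AllInputs) {p : ℕ} {N : ℕ} [NeZero N] {S : Finset ℕ}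
    {𝒪 : Type} [CommRing 𝒪] [IsDomain 𝒪] [IsDiscreteValuationRing 𝒪]
    [IsAdicComplete (IsLocalRing.maximalIdeal 𝒪) 𝒪]
    {θ : CuspForm.heckeAlgebra N 2 (↑S : Set ℕ) →+* IsLocalRing.ResidueField 𝒪}
    {T : Type} [CommRing T] [IsLocalRing T] [IsNoetherianRing T]
    [IsAdicComplete (IsLocalRing.maximalIdeal T) T] [Algebra 𝒪 T] [IsLocalHom (algebraMap 𝒪 T)]
    [Module.Finite 𝒪 T] [Module.Free 𝒪 T] (hp : p.Prime)
    (hp𝒪 : (p : 𝒪) ∈ IsLocalRing.maximalIdeal 𝒪) (hpS : p ∈ S)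
    (hNS : ∀ q : ℕ, q.Prime → q ∣ N → q ∈ S)
    (H : CuspForm.HeckeGaloisRepDatum N (↑S : Set ℕ) 𝒪 θ T)
    (q : ℕ) (hq : q.Prime) (hqS : q ∉ S) :
    H.ρ.IsUnramifiedAt q :=
  S31Lib.s31_of_galInputs (fun N p _ hp => galInputs I N p hp) hp hp𝒪 hpS hNS H q hq hqS

theorem s42 (I : AllInputs) (P : FreyPackage) :
    ∀ M : ℕ, 0 < M → P.EigenformResidualAttachmentAt M :=
  S42Lib.s42_of_s29' (fun hg _ hp _ _ _ φ => s29 I hg hp φ) P

end Fermat.Agent.GAL.Final
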