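import Fermat.Agent.GAL.HomSupportXN

/-!
# Finiteness of `XN N n` and of the torsion of `J₀(N)`
-/

set_option autoImplicit false
set_option linter.style.haveILetI false

open CongruenceSubgroup ModularCurve
open scoped MatrixGroups

noncomputable section

namespace Fermat.Agent.GAL

open HeckeHom HeckeCompare Fermat.Agent.JAN

/-- homomorphisms from a finitely generated group to a finite commutative group -/
theorem finite_hom_of_fg {G : Type*} [Group G] [Group.FG G] {A : Type*} [AddCommGroup A]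
    [Finite A] : Finite (Additive G →+ A) := by
  obtain ⟨s, hs⟩ := Group.FG.out (G := G)
  refine Finite.of_injective (fun φ : Additive G →+ A => fun x : s => φ (Additive.ofMul (x : G)))
    fun φ ψ h => ?_
  have h1 : MonoidHom.eqLocus (AddMonoidHom.toMultiplicativeRight φ)
      (AddMonoidHom.toMultiplicativeRight ψ) = ⊤ := by
    rw [eq_top_iff, ← hs, Subgroup.closure_le]
    intro x hx
    exact congrFun h ⟨x, hx⟩
  refine AddMonoidHom.ext fun g => ?_
  obtain ⟨g, rfl⟩ := Additive.ofMul.surjective g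
  have h2 : g ∈ MonoidHom.eqLocus (AddMonoidHom.toMultiplicativeRight φ)
      (AddMonoidHom.toMultiplicativeRight ψ) := by rw [h1]; trivial
  exact h2

instance finite_XN (N n : ℕ) [NeZero N] [NeZero n] : Finite (XN N n) := by
  have h1 : Group.FG (Gamma0 N) := PeriodLattice.instFGGamma0
  have h2 : Finite (Additive (Gamma0 N) →+ ZMod n) := finite_hom_of_fg
  infer_instance

/-- **The main theorem of team JAN** (`T_ℓ`, `ℓ ∤ N`, part): `XN N n ≃ J₀(N)[n]`. -/
def JanMain (N : ℕ) [NeZero N] : Prop :=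
  ∀ n : ℕ, 0 < n → ∃ Φ : XN N n →+ JZero N, Function.Injective Φ ∧
    (∀ x : JZero N, n • x = 0 → ∃ ψ, Φ ψ = x) ∧
    ∀ (ℓ : Nat.Primes), ¬ (ℓ : ℕ) ∣ N → ∀ ψ : XN N n,
      Φ ⟨(haveI : NeZero (ℓ : ℕ) := ⟨ℓ.2.ne_zero⟩; heckeAdd N ℓ (ψ : Additive (Gamma0 N) →+ ZMod n)),
        haveI : NeZero (ℓ : ℕ) := ⟨ℓ.2.ne_zero⟩; heckeAdd_mem_XN ψ.2⟩ =
        heckeOperatorBar N ℓ (Φ ψ)

theorem JanMain.homSupport {N : ℕ} [NeZero N] (hcomm : HeckeOperatorsCommuteBar N)
    (h : JanMain N) : letI := heckeModuleBar N; HomSupport N (JZero N) := by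
  refine homSupport_of_XN hcomm fun n hn => ?_
  obtain ⟨Φ, h1, -, h2⟩ := h n hn
  exact ⟨Φ, h1, h2⟩

theorem JanMain.finite {N : ℕ} [NeZero N] (h : JanMain N) {n : ℕ} (hn : 0 < n) :
    {x : JZero N | n • x = 0}.Finite := by
  have : NeZero n := ⟨hn.ne'⟩
  obtain ⟨Φ, -, h1, -⟩ := h n hn
  refine (Set.finite_range Φ).subset fun x hx => ?_
  obtain ⟨ψ, hψ⟩ := h1 x hx
  exact ⟨ψ, hψ⟩

end Fermat.Agent.GAL
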