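import Mathlib
import Fermat.Prelude.Def_GaloisRep_Residual
import Fermat.Prelude.Def_ModularCurve_EigenformIdeal
import Fermat.Prelude.Def_ModularCurve_HeckeModule
import Fermat.Prelude.Def_CuspForm_HeckeEvalForms
import Fermat.Agent.QbarInst
import Fermat.Agent.EichlerShimura.ResidualAttachment

/-!
# Team GAL: the precise inputs from the Jacobian side

For a level `N`, a prime `p` and a Galois–Hecke module `J` (in practice `J = JZero N` with
`heckeModuleBar N`) everything team GAL needs is packaged in `GalInput N p J`.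
-/

set_option autoImplicit false

noncomputable section

open ModularCurve

namespace Fermat.Agent.GAL

local notation "Qbar" => AlgebraicClosure ℚ
local notation "Γℚ" => (AlgebraicClosure ℚ ≃ₐ[ℚ] AlgebraicClosure ℚ)

/-- **SUPPORT input** (team JAN). There is a finitely generated torsion-free abelian group `H`
with Hecke action (in practice the parabolic homomorphisms `Γ₀(N) → ℤ`), on which the Hecke
algebra acts at least as faithfully as on `S₂(Γ₀(N))`, and a Hecke-equivariant injection
`H ⊗ ℚ_p/ℤ_p → J`, written as a compatible system `Φ n : H → J` (`Φ n` is `x ↦ x ⊗ p⁻ⁿ`). -/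
def SupportInput (N p : ℕ) [NeZero N] (J : Type) [AddCommGroup J] [Module HeckeAlg J] : Prop :=
  ∃ (H : Type) (_ : AddCommGroup H) (_ : Module HeckeAlg H) (_ : Module.Finite ℤ H)
    (_ : Module.Free ℤ H) (Φ : ℕ → (H →ₗ[HeckeAlg] J)),
    (∀ t : HeckeAlg, (∀ x : H, t • x = 0) → CuspForm.heckeEvalForms N 2 t = 0) ∧
    (∀ (n : ℕ) (x : H), Φ n x = 0 ↔ ∃ y : H, x = p ^ n • y) ∧
    (∀ (n : ℕ) (x : H), p • Φ (n + 1) x = Φ n x)

/-- Everything team GAL needs from the Jacobian. -/
structure GalInput (N p : ℕ) [NeZero N] (J : Type) [AddCommGroup J] [Module HeckeAlg J]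
    [DistribMulAction Γℚ J] [SMulCommClass Γℚ HeckeAlg J] : Prop where
  smooth : ResidualAttachment.Smooth J
  unramified : UnramifiedOutside (K := ℚ) (L := Qbar) N p J
  frobenius : FrobeniusQuadratic (K := ℚ) (L := Qbar) N p J
  finite_torsion : Finite {x : J // p • x = 0}
  support : SupportInput N p J

/-- The existential form (the module is forgotten). -/
def GalInputAt (N p : ℕ) [NeZero N] : Prop :=
  ∃ (J : Type) (_ : AddCommGroup J) (_ : Module HeckeAlg J) (_ : DistribMulAction Γℚ J)
    (_ : SMulCommClass Γℚ HeckeAlg J), GalInput N p J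

end Fermat.Agent.GAL
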