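import Fermat.Agent.GAL.Inputs
import Fermat.Agent.S30Wiring

/-!
# The strong form of the support input

From `GAL.SupportInput N p J` we deduce: there is a constant `c` such that every Hecke polynomial
`a` in the `T_ℓ`, `ℓ ∉ S`, which kills `J[p^(n+c)]` is divisible by `p^n` in the Hecke algebra of
forms `heckeAlgebra N 2 S`.
-/

set_option autoImplicit false
set_option linter.unusedSectionVars false

open ModularCurve Fermat.Agent.S30Wiring

namespace Fermat.Agent.GAL.StrongSupport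

/-- For a submodule `R` of a finitely generated abelian group `E` there is a nonzero integer `e`
such that `k • b ∈ R`, `k ≠ 0`, implies `e • b ∈ R`. -/
theorem exists_saturation {E : Type*} [AddCommGroup E] [Module.Finite ℤ E] (R : Submodule ℤ E) :
    ∃ e : ℕ, e ≠ 0 ∧ ∀ (k : ℕ) (b : E), k ≠ 0 → k • b ∈ R → e • b ∈ R := by
  have hfin : Module.Finite ℤ (Submodule.torsion ℤ (E ⧸ R)) := inferInstance
  have htor : Module.IsTorsion ℤ (Submodule.torsion ℤ (E ⧸ R)) :=
    Submodule.torsion_isTorsion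
  obtain ⟨z, hz1, hz2⟩ := Submodule.annihilator_top_inter_nonZeroDivisors htor
  have hz0 : z ≠ 0 := nonZeroDivisors.ne_zero hz2
  refine ⟨z.natAbs, Int.natAbs_ne_zero.mpr hz0, fun k b hk hkb => ?_⟩
  have h1 : R.mkQ b ∈ Submodule.torsion ℤ (E ⧸ R) := by
    rw [Submodule.mem_torsion_iff]
    refine ⟨⟨(k : ℤ), mem_nonZeroDivisors_of_ne_zero (by exact_mod_cast hk)⟩, ?_⟩
    change (k : ℤ) • R.mkQ b = 0
    rw [← map_smul, Submodule.mkQ_apply, Submodule.Quotient.mk_eq_zero]
    simpa using hkb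
  have h2 := (Submodule.mem_annihilator.mp hz1) ⟨_, h1⟩ Submodule.mem_top
  have h3 : z • R.mkQ b = 0 := congrArg Subtype.val h2
  rw [← map_smul, Submodule.mkQ_apply, Submodule.Quotient.mk_eq_zero] at h3
  rcases Int.natAbs_eq z with h | h
  · rw [h, natCast_zsmul] at h3
    exact h3
  · rw [h, neg_smul, Submodule.neg_mem_iff, natCast_zsmul] at h3
    exact h3

/-- The two evaluations in the Hecke algebras of forms agree. -/
theorem coe_anemicEval {N : ℕ} [NeZero N] {S : Finset ℕ}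
    (hNS : ∀ q : ℕ, q.Prime → q ∣ N → q ∈ S) (a : AnemicAlg S) :
    ((anemicEval hNS a : CuspForm.heckeAlgebra N 2 (↑S : Set ℕ)) :
      Module.End ℂ (CuspForm (CongruenceSubgroup.Gamma0 N) 2)) =
    ((CuspForm.heckeEvalForms N 2 (anemicIncl S a) : CuspForm.heckeAlgebra N 2 ∅) :
      Module.End ℂ (CuspForm (CongruenceSubgroup.Gamma0 N) 2)) := by
  have key : (CuspForm.heckeAlgebra N 2 (↑S : Set ℕ)).val.toRingHom.comp
      (anemicEval hNS).toRingHom =
    ((CuspForm.heckeAlgebra N 2 ∅).val.toRingHom.comp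
      (CuspForm.heckeEvalForms N 2)).comp (anemicIncl S).toRingHom := by
    refine MvPolynomial.ringHom_ext (fun z => ?_) (fun ℓ => ?_)
    · have h1 := RingHom.congr_fun (RingHom.ext_int
        (((CuspForm.heckeAlgebra N 2 (↑S : Set ℕ)).val.toRingHom.comp
          (anemicEval hNS).toRingHom).comp MvPolynomial.C)
        ((((CuspForm.heckeAlgebra N 2 ∅).val.toRingHom.comp
          (CuspForm.heckeEvalForms N 2)).comp (anemicIncl S).toRingHom).comp MvPolynomial.C)) z
      exact h1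
    · have h1 : anemicEval hNS (MvPolynomial.X ℓ) = CuspForm.heckeAlgebra.T (S := (↑S : Set ℕ))
          (k := 2) ℓ.1.2 (fun h => ℓ.2 (hNS _ ℓ.1.2 h)) (fun h => ℓ.2 (Finset.mem_coe.mp h)) := by
        rw [anemicEval, MvPolynomial.aeval_X]
      have h2 : anemicIncl S (MvPolynomial.X ℓ) = heckeGen ℓ.1 := by
        rw [anemicIncl, MvPolynomial.rename_X, heckeGen]
      have h3 := CuspForm.heckeEvalForms_heckeGen_of_not_dvd (N := N) (k := 2) (ℓ := ℓ.1)
        (fun h => ℓ.2 (hNS _ ℓ.1.2 h))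
      change ((anemicEval hNS (MvPolynomial.X ℓ) : CuspForm.heckeAlgebra N 2 (↑S : Set ℕ)) :
        Module.End ℂ (CuspForm (CongruenceSubgroup.Gamma0 N) 2)) =
        ((CuspForm.heckeEvalForms N 2 (anemicIncl S (MvPolynomial.X ℓ)) :
          CuspForm.heckeAlgebra N 2 ∅) :
          Module.End ℂ (CuspForm (CongruenceSubgroup.Gamma0 N) 2))
      rw [h1, h2, h3, CuspForm.heckeAlgebra.coe_T, CuspForm.heckeAlgebra.coe_T]
  exact RingHom.congr_fun key a

/-- Strong support. -/
def StrongSupportInput (N p : ℕ) [NeZero N] (J : Type) [AddCommGroup J] [Module HeckeAlg J]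
    (S : Finset ℕ) : Prop :=
  ∀ (hNS : ∀ q : ℕ, q.Prime → q ∣ N → q ∈ S), ∃ c : ℕ, ∀ (n : ℕ) (a : AnemicAlg S),
    (∀ x : J, p ^ (n + c) • x = 0 → anemicIncl S a • x = 0) →
      ∃ b : CuspForm.heckeAlgebra N 2 (↑S : Set ℕ), anemicEval hNS a = p ^ n • b

/-- Abstract saturation argument. -/
theorem exists_defect {H A 𝕋 : Type*} [AddCommGroup H] [Module.Finite ℤ H] [Module.Free ℤ H]
    [CommRing A] [CommRing 𝕋] [IsAddTorsionFree 𝕋] (ρ : A →+* Module.End ℤ H) (ev : A →+* 𝕋)
    (hev : ∀ a, ρ a = 0 → ev a = 0) {p : ℕ} (hp : p.Prime) :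
    ∃ c : ℕ, ∀ (n : ℕ) (a : A), (∀ x : H, ∃ y : H, ρ a x = p ^ (n + c) • y) →
      ∃ b : 𝕋, ev a = p ^ n • b := by
  let R : Submodule ℤ (Module.End ℤ H) := LinearMap.range ρ.toAddMonoidHom.toIntLinearMap
  obtain ⟨e, he0, he⟩ := exists_saturation R
  obtain ⟨c, e', he', hee⟩ := Nat.exists_eq_pow_mul_and_not_dvd he0 p hp.ne_one
  refine ⟨c, fun n a hdiv => ?_⟩
  have hp0 : p ^ (n + c) ≠ 0 := pow_ne_zero _ hp.ne_zero
  have hinj : Function.Injective (fun x : H => p ^ (n + c) • x) := by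
    intro x y hxy
    have h1 : ((p ^ (n + c) : ℕ) : ℤ) • x = ((p ^ (n + c) : ℕ) : ℤ) • y := by
      simpa only [natCast_zsmul] using hxy
    have : ((p ^ (n + c) : ℕ) : ℤ) ≠ 0 := by exact_mod_cast hp0
    exact smul_right_injective H this h1
  choose y hy using hdiv
  let b : Module.End ℤ H :=
    { toFun := y
      map_add' := fun x x' => hinj (by
        change p ^ (n + c) • y (x + x') = p ^ (n + c) • (y x + y x')
        rw [← hy, smul_add, map_add, hy, hy])
      map_smul' := fun z x => hinj (by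
        change p ^ (n + c) • y (z • x) = p ^ (n + c) • (z • y x)
        rw [← hy, map_smul, hy, smul_comm]) }
  have hb : p ^ (n + c) • b = ρ a := by
    refine LinearMap.ext fun x => ?_
    rw [hy]
    rfl
  have hbR : e • b ∈ R := he (p ^ (n + c)) b hp0 (by rw [hb]; exact ⟨a, rfl⟩)
  obtain ⟨a', ha'⟩ := hbR
  have ha'' : ρ a' = e • b := ha'
  have hz : ρ (e • a - p ^ (n + c) • a') = 0 := by
    rw [map_sub, map_nsmul, map_nsmul, ha'', ← hb, smul_comm, sub_self]
  have hz3 : ev (e • a - p ^ (n + c) • a') = 0 := hev _ hz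
  rw [map_sub, map_nsmul, map_nsmul, sub_eq_zero, hee, pow_add, mul_comm (p ^ n), mul_smul,
    mul_smul] at hz3
  have hz4 : e' • ev a = p ^ n • ev a' :=
    nsmul_right_injective (pow_ne_zero c hp.ne_zero) hz3
  -- Bezout
  have hcop : IsCoprime (e' : ℤ) ((p ^ n : ℕ) : ℤ) := by
    rw [Nat.isCoprime_iff_coprime]
    exact (Nat.Coprime.pow_right n ((Nat.Prime.coprime_iff_not_dvd hp).mpr he').symm)
  obtain ⟨u, v, huv⟩ := hcop
  refine ⟨u • ev a' + v • ev a, ?_⟩
  have h5 : (1 : ℤ) • ev a = (u * e' + v * ((p ^ n : ℕ) : ℤ)) • ev a := by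
    rw [huv]
  rw [one_smul, add_smul, mul_smul, mul_smul, natCast_zsmul, natCast_zsmul, hz4,
    smul_comm u, smul_comm v] at h5
  rw [smul_add]
  exact h5

/-- If the image of an anemic Hecke polynomial in the full Hecke algebra of forms vanishes, so does
its image in the anemic Hecke algebra of forms. -/
theorem anemicEval_eq_zero {N : ℕ} [NeZero N] {S : Finset ℕ}
    (hNS : ∀ q : ℕ, q.Prime → q ∣ N → q ∈ S) (a : AnemicAlg S)
    (h : CuspForm.heckeEvalForms N 2 (anemicIncl S a) = 0) : anemicEval hNS a = 0 := by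
  have h1 := coe_anemicEval hNS a
  rw [h, ZeroMemClass.coe_zero] at h1
  exact (ZeroMemClass.coe_eq_zero).mp h1

theorem strongSupport {N p : ℕ} [NeZero N] (hp : p.Prime) {J : Type} [AddCommGroup J]
    [Module HeckeAlg J] (hs : SupportInput N p J) (S : Finset ℕ) :
    StrongSupportInput N p J S := by
  intro hNS
  obtain ⟨H, _, _, _, _, Φ, hfaith, hker, -⟩ := hs
  -- the action of the anemic algebra on `H`
  let ρ : AnemicAlg S →+* Module.End ℤ H :=
    ((Algebra.lsmul ℤ ℤ H).comp (anemicIncl S)).toRingHom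
  have hρ : ∀ a x, ρ a x = anemicIncl S a • x := fun _ _ => rfl
  obtain ⟨c, hc⟩ := exists_defect (𝕋 := CuspForm.heckeAlgebra N 2 (↑S : Set ℕ)) ρ
    (anemicEval hNS).toRingHom (fun a ha => anemicEval_eq_zero hNS a (hfaith _ fun x => by
      rw [← hρ, ha, LinearMap.zero_apply])) hp
  refine ⟨c, fun n a ha => hc n a fun x => ?_⟩
  have h1 : p ^ (n + c) • Φ (n + c) x = 0 := by
    rw [← map_nsmul]
    exact (hker _ _).mpr ⟨x, rfl⟩
  have h2 := ha _ h1
  rw [← map_smul] at h2
  exact (hker _ _).mp h2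

end Fermat.Agent.GAL.StrongSupport
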