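import Fermat.Agent.GAL.Inputs
import Fermat.Agent.GAL.StrongSupport
import Fermat.Agent.S30Wiring

/-!
# Pseudo-representations and adic Galois representations from `GalInputAt N p`

* `exists_pseudoRep`: for every `p`-adically complete ring `R` and every ring homomorphism
  `π : heckeAlgebra N 2 S →+* R` there is a continuous two-dimensional pseudo-representation of
  `G_ℚ` over `R` with `T (Frob_ℓ) = π T_ℓ`, determinant cyclotomic, unramified outside `N p`.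
* `s30_of_galInput`: S30 from `GalInputAt`.
-/

set_option autoImplicit false
set_option linter.unusedSectionVars false
set_option linter.overlappingInstances false
set_option linter.style.haveILetI false

open Polynomial

namespace Fermat.Agent.GAL.PseudoRepGal

open ModularCurve IsLocalRing Fermat.Agent.S30Assembly Fermat.Agent.S30Wiring
  Fermat.Agent.GAL.StrongSupport Fermat.Agent.PseudoRep

local notation "Qbar" => AlgebraicClosure ℚ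
local notation "Γℚ" => (AlgebraicClosure ℚ ≃ₐ[ℚ] AlgebraicClosure ℚ)

theorem finite_pow_torsion {J : Type*} [AddCommGroup J] {p : ℕ}
    (h : Finite {x : J // p • x = 0}) (n : ℕ) : {x : J | p ^ n • x = 0}.Finite := by
  induction n with
  | zero => simp
  | succ n ih =>
    have e1 : {x : J | p ^ (n + 1) • x = 0} = (fun x => p • x) ⁻¹' {x : J | p ^ n • x = 0} := by
      ext x
      simp only [Set.mem_ofPred_eq, Set.mem_preimage, pow_succ, mul_smul]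
    rw [e1]
    refine Set.Finite.preimage' ih fun b _ => ?_
    by_cases hb : ∃ x₀ : J, p • x₀ = b
    · obtain ⟨x₀, rfl⟩ := hb
      have h0 : {x : J | p • x = 0}.Finite := h
      refine (h0.image (fun x => x + x₀)).subset ?_
      intro x hx
      refine ⟨x - x₀, ?_, by simp⟩
      have hx' : p • x = p • x₀ := hx
      change p • (x - x₀) = 0
      rw [smul_sub, hx', sub_self]
    · convert Set.finite_empty
      rw [Set.eq_empty_iff_forall_notMem]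
      intro x hx
      exact hb ⟨x, hx⟩

/-- Continuous pseudo-representations over `p`-adically complete rings from `GalInputAt`. -/
theorem exists_pseudoRep {p : ℕ} [Fact p.Prime] {N : ℕ} [NeZero N] {S : Finset ℕ}
    (hpS : p ∈ S) (hNS : ∀ q : ℕ, q.Prime → q ∣ N → q ∈ S) (I : GalInputAt N p)
    {R : Type*} [CommRing R] (hR : PComplete p R)
    (π : CuspForm.heckeAlgebra N 2 (↑S : Set ℕ) →+* R) :
    ∃ (T : Γℚ → R) (D : Γℚ →* R), IsPseudoRep T D ∧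
      (∀ c : Γℚ, c * c = 1 → c ≠ 1 → D c = -1) ∧
      (∀ g n, (p : R) ^ n ∣ D g - (e p n g : R)) ∧
      (∀ n : ℕ, ∃ L : IntermediateField ℚ Qbar, FiniteDimensional ℚ L ∧
        ∀ σ : Γℚ, (∀ y ∈ L, σ y = y) →
          (∀ h, (p : R) ^ n ∣ T (σ * h) - T h) ∧ (p : R) ^ n ∣ D σ - 1) ∧
      (∀ (ℓ : ℕ) (hℓ : ℓ.Prime) (hℓN : ¬ ℓ ∣ N) (hℓS : ℓ ∉ (↑S : Set ℕ)),
        ∀ B : ValuationSubring Qbar, B.LiesOverPrime ℓ →
        ∀ σ : Γℚ, B.IsFrobeniusAt σ ℓ →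
          T σ = π (CuspForm.heckeAlgebra.T hℓ hℓN hℓS) ∧ D σ = (ℓ : R)) ∧
      (∀ q : ℕ, q.Prime → ¬ q ∣ N → q ≠ p → ∀ B : ValuationSubring Qbar, B.LiesOverPrime q →
        ∀ σ ∈ B.inertiaSubgroupIn ℚ, (∀ h, T (σ * h) = T h) ∧ D σ = 1) := by
  have hp : p.Prime := Fact.out
  obtain ⟨J, _, _, _, _, I⟩ := I
  obtain ⟨s, hs⟩ := strongSupport hp I.support S hNS
  letI : Module (AnemicAlg S) J := Module.compHom J (anemicIncl S).toRingHom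
  have hsmul : ∀ (a : AnemicAlg S) (x : J), a • x = anemicIncl S a • x := fun _ _ => rfl
  haveI : SMulCommClass Γℚ (AnemicAlg S) J :=
    ⟨fun g a x => by rw [hsmul, hsmul, smul_comm]⟩
  let χ' : AnemicAlg S →+* R := π.comp (anemicEval hNS).toRingHom
  let x : ℕ → AnemicAlg S := fun ℓ =>
    if h : ∃ hℓ : ℓ.Prime, ((⟨ℓ, hℓ⟩ : Nat.Primes) : ℕ) ∉ S then
      MvPolynomial.X ⟨⟨ℓ, h.choose⟩, h.choose_spec⟩ else 0
  have hx : ∀ (ℓ : ℕ) (hℓ : ℓ.Prime) (hℓS : ℓ ∉ S), x ℓ = MvPolynomial.X ⟨⟨ℓ, hℓ⟩, hℓS⟩ :=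
    fun ℓ hℓ hℓS => dif_pos ⟨hℓ, hℓS⟩
  have hdvd : ∀ ℓ : ℕ, ℓ.Prime → ℓ ∉ S → ¬ ℓ ∣ N * p := by
    intro ℓ hℓ hℓS h
    rcases (Nat.Prime.dvd_mul hℓ).mp h with h | h
    · exact hℓS (hNS ℓ hℓ h)
    · rw [(Nat.prime_dvd_prime_iff_eq hℓ Fact.out).mp h] at hℓS
      exact hℓS hpS
  have hsm : ∀ x : J, ∃ L : IntermediateField ℚ Qbar, FiniteDimensional ℚ L ∧
      ∀ g : Γℚ, (∀ y ∈ L, g y = y) → g • x = x := I.smooth
  obtain ⟨T, D, H, hDc, hD, hcont, hfr, hin⟩ := exists_pseudoRep_of_heckeModule_shift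
    (A := AnemicAlg S) (M := J)
    N S hpS x
    (fun n => finite_level_of_smooth (J := J) hsm n (finite_pow_torsion I.finite_torsion n))
    (fun q hq hqN hqp B hB σ hσ m hm => I.unramified q hq (fun h => by
      rcases (Nat.Prime.dvd_mul hq).mp h with h | h
      · exact hqN h
      · exact hqp ((Nat.prime_dvd_prime_iff_eq hq Fact.out).mp h)) B hB σ hσ m hm)
    (fun ℓ hℓ hℓS B hB σ hσ m hm => by
      have h := I.frobenius ℓ hℓ (hdvd ℓ hℓ hℓS) B hB σ hσ m hm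
      rw [hx ℓ hℓ hℓS, hsmul, anemicIncl, MvPolynomial.rename_X]
      exact h)
    hR χ' s (fun n a ha => by
      obtain ⟨b, hb⟩ := hs n a ha
      change (p : R) ^ n ∣ π (anemicEval hNS a)
      rw [hb, map_nsmul, nsmul_eq_mul, Nat.cast_pow]
      exact dvd_mul_right _ _)
  refine ⟨T, D, H, hDc, hD, hcont, fun ℓ hℓ hℓN hℓS B hB σ hσ => ?_, hin⟩
  have hℓS' : ℓ ∉ S := fun h => hℓS (Finset.mem_coe.mpr h)
  have hχ : χ' (MvPolynomial.X ⟨⟨ℓ, hℓ⟩, hℓS'⟩) = π (CuspForm.heckeAlgebra.T hℓ hℓN hℓS) := by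
    change π (anemicEval hNS (MvPolynomial.X _)) = _
    rw [anemicEval, MvPolynomial.aeval_X]
  obtain ⟨h1, h2⟩ := hfr ℓ hℓ hℓS' B hB σ hσ
  rw [hx ℓ hℓ hℓS', hχ] at h1
  exact ⟨h1, h2⟩

/-- Adic Galois representations over `𝒪'` from `GalInputAt`. -/
theorem exists_galoisRepAdic {p : ℕ} [Fact p.Prime] {N : ℕ} [NeZero N] {S : Finset ℕ}
    (hpS : p ∈ S) (hNS : ∀ q : ℕ, q.Prime → q ∣ N → q ∈ S) (I : GalInputAt N p)
    (𝒪' : Type) [CommRing 𝒪'] [IsDomain 𝒪'] [IsDiscreteValuationRing 𝒪']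
    [IsAdicComplete (IsLocalRing.maximalIdeal 𝒪') 𝒪'] [CharZero 𝒪']
    (hp𝒪' : (p : 𝒪') ∈ IsLocalRing.maximalIdeal 𝒪')
    (χ : CuspForm.heckeAlgebra N 2 (↑S : Set ℕ) →+* 𝒪') :
    ∃ ρ : GaloisRepAdic 𝒪',
      (∀ (ℓ : ℕ) (hℓ : ℓ.Prime) (hℓN : ¬ ℓ ∣ N) (hℓS : ℓ ∉ (↑S : Set ℕ)),
        ∀ A : ValuationSubring (AlgebraicClosure ℚ), A.LiesOverPrime ℓ →
          ∀ σ : AlgebraicClosure ℚ ≃ₐ[ℚ] AlgebraicClosure ℚ, A.IsFrobeniusAt σ ℓ →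
            LinearMap.charpoly (ρ.ρ σ) =
              X ^ 2 - C (χ (CuspForm.heckeAlgebra.T hℓ hℓN hℓS)) * X + C ((ℓ : 𝒪'))) ∧
      (∀ q : ℕ, q.Prime → ¬ q ∣ N → q ≠ p → ρ.IsUnramifiedAt q) := by
  have hp0 : p ≠ 0 := (Fact.out : p.Prime).ne_zero
  obtain ⟨T, D, H, hDc, -, hcont, hfr, hin⟩ := exists_pseudoRep hpS hNS I
    (PComplete.of_dvr hp0 hp𝒪') χ
  obtain ⟨c, hc, hc1⟩ := exists_involution
  have h2 : (2 : 𝒪') ≠ 0 := two_ne_zero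
  obtain ⟨ρ, hρ1, hρ2⟩ := PseudoRep.exists_galoisRepAdic h2 hc H (hDc c hc hc1) (fun n => by
    obtain ⟨L, hL, h⟩ := hcont n
    exact ⟨L, hL, fun σ hσ h' => pow_mem hp𝒪' ((h σ hσ).1 h')⟩)
  refine ⟨ρ, ?_, ?_⟩
  · intro ℓ hℓ hℓN hℓS B hB σ hσ
    rw [hρ1, (hfr ℓ hℓ hℓN hℓS B hB σ hσ).1, (hfr ℓ hℓ hℓN hℓS B hB σ hσ).2]
  · intro q hq hqN hqp B hB σ hσ
    exact hρ2 σ (hin q hq hqN hqp B hB σ hσ).1

/-- **S30 from `GalInputAt`.** -/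
theorem s30_of_galInput (HI : ∀ (p : ℕ) (N : ℕ) [NeZero N], p.Prime → GalInputAt N p) :
    ∀ (p : ℕ) [Fact p.Prime] (N : ℕ) [NeZero N] (S : Finset ℕ)
      (_hpS : p ∈ S) (_hNS : ∀ q : ℕ, q.Prime → q ∣ N → q ∈ S)
      (𝒪' : Type) [CommRing 𝒪'] [IsDomain 𝒪'] [IsDiscreteValuationRing 𝒪']
      [IsAdicComplete (IsLocalRing.maximalIdeal 𝒪') 𝒪'] [Finite (IsLocalRing.ResidueField 𝒪')]
      [CharZero 𝒪'] (_hp𝒪' : (p : 𝒪') ∈ IsLocalRing.maximalIdeal 𝒪')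
      (χ : CuspForm.heckeAlgebra N 2 (↑S : Set ℕ) →+* 𝒪'),
      ∃ (𝒪'' : Type) (_ : CommRing 𝒪'') (_ : IsDomain 𝒪'') (_ : IsDiscreteValuationRing 𝒪'')
        (_ : IsAdicComplete (IsLocalRing.maximalIdeal 𝒪'') 𝒪'')
        (_ : Finite (IsLocalRing.ResidueField 𝒪'')) (_ : CharZero 𝒪'')
        (_ : Algebra 𝒪' 𝒪'') (_ : Module.Finite 𝒪' 𝒪'') (_ : IsLocalHom (algebraMap 𝒪' 𝒪'')),
      Function.Injective (algebraMap 𝒪' 𝒪'') ∧
      ∃ ρ : GaloisRepAdic 𝒪'',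
        (∀ (ℓ : ℕ) (hℓ : ℓ.Prime) (hℓN : ¬ ℓ ∣ N) (hℓS : ℓ ∉ (↑S : Set ℕ)),
          ∀ A : ValuationSubring (AlgebraicClosure ℚ), A.LiesOverPrime ℓ →
            ∀ σ : AlgebraicClosure ℚ ≃ₐ[ℚ] AlgebraicClosure ℚ, A.IsFrobeniusAt σ ℓ →
              LinearMap.charpoly (ρ.ρ σ) =
                X ^ 2 - C (algebraMap 𝒪' 𝒪'' (χ (CuspForm.heckeAlgebra.T hℓ hℓN hℓS))) * X
                  + C ((ℓ : 𝒪''))) ∧
        (∀ q : ℕ, q.Prime → ¬ q ∣ N → q ≠ p → ρ.IsUnramifiedAt q) := by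
  intro p _ N _ S hpS hNS 𝒪' _ _ _ _ _ _ hp𝒪' χ
  obtain ⟨ρ, h1, h2⟩ := exists_galoisRepAdic hpS hNS (HI p N Fact.out) 𝒪' hp𝒪' χ
  refine ⟨𝒪', inferInstance, inferInstance, inferInstance, inferInstance, inferInstance,
    inferInstance, Algebra.id 𝒪', Module.Finite.self 𝒪', ⟨fun a ha => ha⟩,
    fun a b h => h, ρ, ?_, h2⟩
  exact h1

end Fermat.Agent.GAL.PseudoRepGal
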