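import Fermat.Agent.GAL.PeriodLattice

/-!
# Periods of elements with `|trace| ≤ 2` vanish; the period lattice is finitely generated
-/

set_option autoImplicit false

open UpperHalfPlane Complex Filter Topology Function Matrix.SpecialLinearGroup CongruenceSubgroup
open scoped Manifold MatrixGroups ModularForm OnePoint
open Fermat.Agent.EichlerInt Fermat.Agent.GAL.HeckeHom

noncomputable section

namespace Fermat.Agent.GAL.PeriodLattice

/-- the trace of an element of `SL(2,ℤ)`. -/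
abbrev tr (γ : SL(2, ℤ)) : ℤ := (γ : Matrix (Fin 2) (Fin 2) ℤ).trace

theorem pow_twelve_eq_one {γ : SL(2, ℤ)} (h : tr γ ^ 2 < 4) : γ ^ 12 = 1 := by
  have hdet := γ.det_coe
  have hcay : (γ : Matrix (Fin 2) (Fin 2) ℤ) * γ = tr γ • (γ : Matrix (Fin 2) (Fin 2) ℤ) - 1 := by
    rw [Matrix.det_fin_two] at hdet
    rw [tr, Matrix.trace_fin_two]
    have e00 : ((γ : Matrix (Fin 2) (Fin 2) ℤ) * γ) 0 0 = (γ 0 0 + γ 1 1) * γ 0 0 - 1 := by
      rw [Matrix.mul_apply, Fin.sum_univ_two]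
      linear_combination -hdet
    have e01 : ((γ : Matrix (Fin 2) (Fin 2) ℤ) * γ) 0 1 = (γ 0 0 + γ 1 1) * γ 0 1 - 0 := by
      rw [Matrix.mul_apply, Fin.sum_univ_two]
      ring
    have e10 : ((γ : Matrix (Fin 2) (Fin 2) ℤ) * γ) 1 0 = (γ 0 0 + γ 1 1) * γ 1 0 - 0 := by
      rw [Matrix.mul_apply, Fin.sum_univ_two]
      ring
    have e11 : ((γ : Matrix (Fin 2) (Fin 2) ℤ) * γ) 1 1 = (γ 0 0 + γ 1 1) * γ 1 1 - 1 := by
      rw [Matrix.mul_apply, Fin.sum_univ_two]
      linear_combination -hdet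
    ext i j
    fin_cases i <;> fin_cases j
    · exact e00
    · exact e01
    · exact e10
    · exact e11
  have ht : tr γ = 0 ∨ tr γ = 1 ∨ tr γ = -1 := by
    have h1 : tr γ < 2 := by nlinarith
    have h2 : -2 < tr γ := by nlinarith
    omega
  apply Subtype.ext
  rw [Matrix.SpecialLinearGroup.coe_pow, Matrix.SpecialLinearGroup.coe_one]
  set M : Matrix (Fin 2) (Fin 2) ℤ := (γ : Matrix (Fin 2) (Fin 2) ℤ) with hM
  rcases ht with h0 | h0 | h0
  · rw [h0, zero_smul, zero_sub] at hcay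
    calc M ^ 12 = (M * M) ^ 6 := by rw [← pow_two, ← pow_mul]
      _ = 1 := by rw [hcay, Even.neg_pow (by decide), one_pow]
  · rw [h0, one_smul] at hcay
    have h3 : M ^ 3 = -1 := by
      calc M ^ 3 = (M * M) * M := by rw [pow_succ, pow_two]
        _ = M * M - M := by rw [hcay, sub_mul, one_mul, hcay]
        _ = -1 := by rw [hcay]; abel
    calc M ^ 12 = (M ^ 3) ^ 4 := by rw [← pow_mul]
      _ = 1 := by rw [h3, Even.neg_pow (by decide), one_pow]
  · rw [h0, _root_.neg_smul, one_smul] at hcay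
    have h3 : M ^ 3 = 1 := by
      calc M ^ 3 = (M * M) * M := by rw [pow_succ, pow_two]
        _ = - (M * M) - M := by rw [hcay, sub_mul, one_mul, neg_mul, hcay]
        _ = 1 := by rw [hcay]; abel
    calc M ^ 12 = (M ^ 3) ^ 4 := by rw [← pow_mul]
      _ = 1 := by rw [h3, one_pow]

/-- a matrix of trace `2ε`, `ε = ±1`, is conjugate to `ε (1 h; 0 1)`. -/
theorem exists_conj_unipotent {γ : SL(2, ℤ)} {ε : ℤ} (hε : ε * ε = 1) (h : tr γ = 2 * ε) :
    ∃ (δ : SL(2, ℤ)) (k : ℤ), ((δ⁻¹ * γ * δ : SL(2, ℤ)) : Matrix (Fin 2) (Fin 2) ℤ) =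
      !![ε, k; 0, ε] := by
  have hdet := γ.det_coe
  rw [Matrix.det_fin_two] at hdet
  rw [tr, Matrix.trace_fin_two] at h
  -- a primitive eigenvector
  obtain ⟨v0, v1, hcop, h1, h2⟩ : ∃ v0 v1 : ℤ, IsCoprime v0 v1 ∧
      γ 0 0 * v0 + γ 0 1 * v1 = ε * v0 ∧ γ 1 0 * v0 + γ 1 1 * v1 = ε * v1 := by
    by_cases hc : γ 1 0 = 0
    · refine ⟨1, 0, isCoprime_one_left, ?_, ?_⟩
      · rw [hc, mul_zero, sub_zero] at hdet
        have h3 : (γ 0 0 - γ 1 1) ^ 2 = 0 := by
          have : (γ 0 0 - γ 1 1) ^ 2 = (γ 0 0 + γ 1 1) ^ 2 - 4 * (γ 0 0 * γ 1 1) := by ring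
          rw [this, h, hdet]
          linear_combination 4 * hε
        have h4 : γ 0 0 = γ 1 1 := by
          have := pow_eq_zero_iff (two_ne_zero) |>.mp h3
          linarith
        linarith
      · rw [hc]; ring
    · set g : ℤ := ((Int.gcd (γ 1 1 - ε) (γ 1 0) : ℕ) : ℤ) with hg
      have hg0 : g ≠ 0 := by
        rw [hg]
        have : Int.gcd (γ 1 1 - ε) (γ 1 0) ≠ 0 := by
          rw [Ne, Int.gcd_eq_zero_iff]
          exact fun h => hc h.2
        exact_mod_cast this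
      obtain ⟨x, hx⟩ : g ∣ γ 1 1 - ε := Int.gcd_dvd_left _ _
      obtain ⟨y, hy⟩ : g ∣ γ 1 0 := Int.gcd_dvd_right _ _
      have hcop : IsCoprime x y := by
        have hpos : 0 < Int.gcd (γ 1 1 - ε) (γ 1 0) := by
          rw [Nat.pos_iff_ne_zero, Ne, Int.gcd_eq_zero_iff]
          exact fun h => hc h.2
        have hb := Int.gcd_eq_gcd_ab (γ 1 1 - ε) (γ 1 0)
        generalize Int.gcdA (γ 1 1 - ε) (γ 1 0) = A at hb
        generalize Int.gcdB (γ 1 1 - ε) (γ 1 0) = B at hb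
        refine ⟨A, B, ?_⟩
        apply mul_left_cancel₀ hg0
        have hb' : g = (γ 1 1 - ε) * A + γ 1 0 * B := hb
        linear_combination (-A) * hx - B * hy - hb'
      refine ⟨x, -y, hcop.neg_right, ?_, ?_⟩
      · apply mul_left_cancel₀ hg0
        have e1 : g * (γ 0 0 * x + γ 0 1 * -y) = γ 0 0 * (γ 1 1 - ε) - γ 0 1 * γ 1 0 := by
          rw [hx, hy]; ring
        have e2 : g * (ε * x) = ε * (γ 1 1 - ε) := by rw [hx]; ring
        rw [e1, e2]
        linear_combination hdet - ε * h - hε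
      · apply mul_left_cancel₀ hg0
        have e1 : g * (γ 1 0 * x + γ 1 1 * -y) = γ 1 0 * (γ 1 1 - ε) - γ 1 1 * γ 1 0 := by
          rw [hx]
          calc g * (γ 1 0 * x + γ 1 1 * -y) = γ 1 0 * (g * x) - γ 1 1 * (g * y) := by ring
            _ = _ := by rw [← hy]
        have e2 : g * (ε * -y) = - ε * γ 1 0 := by rw [hy]; ring
        rw [e1, e2]
        ring
  obtain ⟨u, w, huw⟩ := hcop
  let δ : SL(2, ℤ) := ⟨!![v0, -w; v1, u], by rw [Matrix.det_fin_two_of]; linarith⟩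
  refine ⟨δ, (δ⁻¹ * γ * δ : SL(2, ℤ)) 0 1, ?_⟩
  have hinv : (δ⁻¹ : SL(2, ℤ)) = ⟨!![u, w; -v1, v0], by rw [Matrix.det_fin_two_of]; linarith⟩ := by
    apply Subtype.ext
    rw [Matrix.SpecialLinearGroup.SL2_inv_expl]
    ext i j
    fin_cases i <;> fin_cases j <;> simp [δ]
  have hM : ∀ i j, ((δ⁻¹ * γ * δ : SL(2, ℤ)) : Matrix (Fin 2) (Fin 2) ℤ) i j =
      (!![u, w; -v1, v0] * (γ : Matrix (Fin 2) (Fin 2) ℤ) * !![v0, -w; v1, u]) i j := by
    intro i j
    rw [hinv]
    rfl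
  have e00 : (δ⁻¹ * γ * δ : SL(2, ℤ)) 0 0 = ε := by
    have := hM 0 0
    simp only [Matrix.mul_apply, Fin.sum_univ_two, Matrix.of_apply, Matrix.cons_val', Matrix.cons_val_zero,
      Matrix.cons_val_one, Matrix.cons_val_fin_one] at this
    rw [this]
    linear_combination u * h1 + w * h2 + ε * huw
  have e10 : (δ⁻¹ * γ * δ : SL(2, ℤ)) 1 0 = 0 := by
    have := hM 1 0
    simp only [Matrix.mul_apply, Fin.sum_univ_two, Matrix.of_apply, Matrix.cons_val', Matrix.cons_val_zero,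
      Matrix.cons_val_one, Matrix.cons_val_fin_one] at this
    rw [this]
    linear_combination (-v1) * h1 + v0 * h2
  have e11 : (δ⁻¹ * γ * δ : SL(2, ℤ)) 1 1 = ε := by
    have hd := (δ⁻¹ * γ * δ : SL(2, ℤ)).det_coe
    rw [Matrix.det_fin_two, e10, e00, mul_zero, sub_zero] at hd
    have : ε * (ε * (δ⁻¹ * γ * δ : SL(2, ℤ)) 1 1) = ε * 1 := by rw [hd]
    rw [← mul_assoc, hε, one_mul, mul_one] at this
    exact this
  ext i j
  fin_cases i <;> fin_cases j
  · exact e00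
  · rfl
  · exact e10
  · exact e11

variable {N : ℕ} [NeZero N]

theorem perFun_eq_zero {γ : Gamma0 N} (h : tr (γ : SL(2, ℤ)) ^ 2 ≤ 4) : perFun γ = 0 := by
  rcases lt_or_eq_of_le h with h | h
  · have h1 := pow_twelve_eq_one h
    have h2 : (γ : Gamma0 N) ^ 12 = 1 := Subtype.ext (by rw [Subgroup.coe_pow, h1]; rfl)
    have h3 : (12 : ℕ) • perHom N (Additive.ofMul γ) = 0 := by
      rw [← map_nsmul, ← ofMul_pow, h2, ofMul_one, map_zero]
    rw [← Nat.cast_smul_eq_nsmul ℂ, smul_eq_zero] at h3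
    rcases h3 with h3 | h3
    · norm_num at h3
    · exact h3
  · -- parabolic case
    obtain ⟨ε, hε, ht⟩ : ∃ ε : ℤ, ε * ε = 1 ∧ tr (γ : SL(2, ℤ)) = 2 * ε := by
      have h4 : (tr (γ : SL(2, ℤ)) - 2) * (tr (γ : SL(2, ℤ)) + 2) = 0 := by
        linear_combination h
      rcases mul_eq_zero.mp h4 with h5 | h5
      · exact ⟨1, by norm_num, by linarith⟩
      · exact ⟨-1, by norm_num, by linarith⟩
    obtain ⟨δ, k, hδ⟩ := exists_conj_unipotent hε ht
    ext f
    rw [LinearMap.zero_apply]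
    set F : ℍ → ℂ := (primOf N f : ℍ → ℂ) with hFdef
    have hF : IsPrim f F := isPrim_primOf f
    have h1 := isPrim_comp_smul (mapGL ℝ δ) (det_mapGL_pos _) hF
    set G : ℍ → ℂ := (prim (sl 2 δ (toGood N 2 f)) : ℍ → ℂ) with hG
    have h2 : IsPrim _ G := isPrim_prim (sl 2 δ (toGood N 2 f))
    obtain ⟨c, hc⟩ := eq_add_const_of_isPrim h1 h2
    have hc' : ∀ τ : ℍ, F (δ • τ) = G τ + c := hc
    have hsmul : ∀ τ : ℍ, (δ⁻¹ * (γ : SL(2, ℤ)) * δ) • τ = ((ε * k : ℤ) : ℝ) +ᵥ τ := by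
      intro τ
      ext
      have e00 : (δ⁻¹ * (γ : SL(2, ℤ)) * δ : SL(2, ℤ)) 0 0 = ε := by
        have := congrFun (congrFun hδ 0) 0
        simpa using this
      have e01 : (δ⁻¹ * (γ : SL(2, ℤ)) * δ : SL(2, ℤ)) 0 1 = k := by
        have := congrFun (congrFun hδ 0) 1
        simpa using this
      have e10 : (δ⁻¹ * (γ : SL(2, ℤ)) * δ : SL(2, ℤ)) 1 0 = 0 := by
        have := congrFun (congrFun hδ 1) 0
        simpa using this
      have e11 : (δ⁻¹ * (γ : SL(2, ℤ)) * δ : SL(2, ℤ)) 1 1 = ε := by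
        have := congrFun (congrFun hδ 1) 1
        simpa using this
      rw [UpperHalfPlane.coe_specialLinearGroup_apply, e00, e01, e10, e11, UpperHalfPlane.coe_vadd]
      have hεC : (ε : ℂ) * ε = 1 := by exact_mod_cast hε
      have hε0 : (ε : ℂ) ≠ 0 := fun h0 => by rw [h0, mul_zero] at hεC; exact zero_ne_one hεC
      simp only [algebraMap_int_eq, eq_intCast, Int.cast_zero, Complex.ofReal_zero, zero_mul,
        zero_add, Complex.ofReal_intCast, Int.cast_mul, Complex.ofReal_mul]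
      field_simp
      linear_combination (-(k : ℂ)) * hεC
    have hval : ∀ τ : ℍ, perFun γ f = G (((ε * k : ℤ) : ℝ) +ᵥ τ) - G τ := by
      intro τ
      rw [← sub_eq_perFun hF γ (δ • τ)]
      have h3 : (γ : SL(2, ℤ)) • δ • τ = δ • ((δ⁻¹ * (γ : SL(2, ℤ)) * δ) • τ) := by
        rw [← mul_smul, ← mul_smul]
        congr 1
        group
      rw [h3, hc', hc', hsmul]
      ring
    have hzero : Tendsto G atImInfty (𝓝 0) := (prim (sl 2 δ (toGood N 2 f))).2.zero
    have hshift : Tendsto (fun τ : ℍ => ((ε * k : ℤ) : ℝ) +ᵥ τ) atImInfty atImInfty := by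
      rw [atImInfty, tendsto_comap_iff]
      have : (UpperHalfPlane.im ∘ fun τ : ℍ => ((ε * k : ℤ) : ℝ) +ᵥ τ) = UpperHalfPlane.im := by
        funext τ
        simp
      rw [this]
      exact tendsto_comap
    have hlim : Tendsto (fun τ : ℍ => G (((ε * k : ℤ) : ℝ) +ᵥ τ) - G τ) atImInfty (𝓝 (0 - 0)) :=
      (hzero.comp hshift).sub hzero
    rw [sub_zero] at hlim
    have hconst : Tendsto (fun _ : ℍ => perFun γ f) atImInfty (𝓝 0) :=
      hlim.congr fun τ => (hval τ).symm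
    exact tendsto_nhds_unique tendsto_const_nhds hconst

/-! ### finite generation -/

instance instFGSL2Z : Group.FG SL(2, ℤ) := by
  refine ⟨⟨{ModularGroup.S, ModularGroup.T}, ?_⟩⟩
  rw [← SpecialLinearGroup.SL2Z_generators]
  congr 1
  ext x
  simp

instance instFGGamma0 : Group.FG (Gamma0 N) := Subgroup.fg_of_index_ne_zero (Gamma0 N)

variable (N) in
/-- the period lattice -/
def perLat : Submodule ℤ (CuspForm (Gamma0 N) 2 →ₗ[ℂ] ℂ) :=
  AddSubgroup.toIntSubmodule (perHom N).range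

instance : Module.Finite ℤ (perLat N) := by
  have h1 : AddGroup.FG (Additive (Gamma0 N)) := inferInstance
  have h2 : AddGroup.FG (perHom N).range := AddGroup.fg_range (perHom N)
  have h3 : AddGroup.FG (perLat N) := h2
  exact Module.Finite.iff_addGroup_fg.mpr h3

instance : Module.IsTorsionFree ℤ (perLat N) := inferInstance

end Fermat.Agent.GAL.PeriodLattice
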