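import Fermat.Agent.GAL.SupportH5
import Fermat.Agent.S30Wiring
import Fermat.Agent.GAL.Lattice

/-!
# `S30Wiring.SupportInput` from the JAN interface `HomSupport`
-/

set_option autoImplicit false
set_option linter.style.haveILetI false

open UpperHalfPlane Matrix.SpecialLinearGroup CongruenceSubgroup
open scoped MatrixGroups
open ModularCurve
open Fermat.Agent.GAL.HeckeHom Fermat.Agent.GAL.PeriodLattice

noncomputable section

namespace Fermat.Agent.GAL

variable {N : ℕ} [NeZero N]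

theorem anemicEval_eq {S : Finset ℕ} (hNS : ∀ q : ℕ, q.Prime → q ∣ N → q ∈ S)
    (a : S30Wiring.AnemicAlg S) :
    S30Wiring.anemicEval hNS a = evalT (S := (↑S : Set ℕ)) hNS a := by
  have h : (S30Wiring.anemicEval (N := N) hNS : S30Wiring.AnemicAlg S →+* _) =
      evalT (S := (↑S : Set ℕ)) hNS := by
    refine MvPolynomial.ringHom_ext (fun r => ?_) fun ℓ => ?_
    · rw [evalT_C]
      simp
    · rw [evalT_X]
      show S30Wiring.anemicEval hNS (MvPolynomial.X ℓ) = _
      rw [S30Wiring.anemicEval, MvPolynomial.aeval_X]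
  exact DFunLike.congr_fun h a

/-- helper69's support input from `HomSupport`. -/
theorem supportInput_of_homSupport {p : ℕ} (hp : 0 < p) (S : Finset ℕ)
    (hJ : letI := heckeModuleBar N; HomSupport N (JZero N)) :
    S30Wiring.SupportInput N p S := by
  letI := heckeModuleBar N
  intro hNS 𝒪' _ _ _ _ χ n a ha
  rw [anemicEval_eq]
  exact pow_dvd_of_homSupport hJ (S := (↑S : Set ℕ)) hNS χ hp n a ha

/-- **Lattice form** of the support theorem: the period lattice `P`. -/
theorem exists_lattice_of_homSupport {J : Type} [AddCommGroup J] [Module HeckeAlg J]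
    (hJ : HomSupport N J) {S : Finset ℕ} (hNS : ∀ q : ℕ, q.Prime → q ∣ N → q ∈ S) :
    ∃ (P : Type) (_ : AddCommGroup P) (_ : Module (S30Wiring.AnemicAlg S) P)
      (_ : Module.Finite ℤ P) (_ : Module.Free ℤ P),
      (∀ a : S30Wiring.AnemicAlg S, (∀ x : P, a • x = 0) →
        S30Wiring.anemicEval (N := N) hNS a = 0) ∧
      (∀ (m : ℕ), 0 < m → ∀ (a : S30Wiring.AnemicAlg S),
        (∀ x : J, m • x = 0 → S30Wiring.anemicIncl S a • x = 0) →
          ∀ x : P, ∃ y : P, a • x = m • y) := by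
  have h1 : Module.Finite ℤ (perLat N) := inferInstance
  have h2 : Module.Free ℤ (perLat N) := inferInstance
  refine ⟨perLat N, inferInstance, Module.compHom (perLat N)
    ((actLat (S := (↑S : Set ℕ)) hNS).comp (evalT (S := (↑S : Set ℕ)) hNS)), h1, h2, ?_, ?_⟩
  · intro a ha
    rw [anemicEval_eq]
    apply actLat_injective (S := (↑S : Set ℕ)) hNS
    rw [map_zero]
    exact LinearMap.ext fun x => ha x
  · intro m hm a ha x
    obtain ⟨b, hb⟩ := exists_end_of_homSupport hJ (S := (↑S : Set ℕ)) hNS hm a ha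
    refine ⟨b x, ?_⟩
    show (actLat hNS (evalT hNS a)) x = m • b x
    rw [hb, LinearMap.smul_apply]
    exact natCast_zsmul _ _

/-- helper29's lattice input from `HomSupport`. -/
theorem latticeInput_of_homSupport {p : ℕ} (hp : 0 < p) (S : Finset ℕ)
    (hJ : letI := heckeModuleBar N; HomSupport N (JZero N)) :
    Lattice.LatticeInput N p S := by
  letI := heckeModuleBar N
  intro hNS
  obtain ⟨P, i1, i2, i3, i4, h1, h2⟩ := exists_lattice_of_homSupport hJ hNS
  exact ⟨P, i1, i2, i3, i4, h1, fun n a ha x => h2 (p ^ n) (pow_pos hp n) a ha x⟩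

/-- `HomSupport` from an injection equivariant for `heckeOperatorBar`. -/
theorem homSupport_JZero (hcomm : HeckeOperatorsCommuteBar N)
    (h : ∀ n : ℕ, 0 < n → ∃ Φ : parEll N (ZMod n) →+ JZero N, Function.Injective Φ ∧
      ∀ (ℓ : ℕ) (hℓ : ℓ.Prime) (hℓN : ¬ ℓ ∣ N) (φ ψ : parEll N (ZMod n)),
        (ψ : Additive (Gamma0 N) →+ ZMod n) = heckeHom hℓ hℓN φ →
          Φ ψ = heckeOperatorBar N ⟨ℓ, hℓ⟩ (Φ φ)) :
    letI := heckeModuleBar N
    HomSupport N (JZero N) := by
  letI := heckeModuleBar N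
  intro n hn
  obtain ⟨Φ, hΦ, hT⟩ := h n hn
  refine ⟨Φ, hΦ, fun ℓ hℓ hℓN φ ψ hψ => ?_⟩
  rw [hT ℓ hℓ hℓN φ ψ hψ]
  exact (heckeModuleBar_heckeGen_smul hcomm ⟨ℓ, hℓ⟩ (Φ φ)).symm

end Fermat.Agent.GAL
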