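import Fermat.Agent.GAL.HeckeHom
import Fermat.Agent.JAN.Defs
import Mathlib.GroupTheory.Transfer

/-!
# Comparison of the transfer form of `T_ℓ` with the coset form (`ℓ ∤ N`)

`heckeAdd_eq_heckeHom : JAN.heckeAdd N ℓ ψ = HeckeHom.heckeHom hℓ hℓN ψ`.
-/

set_option autoImplicit false

open CongruenceSubgroup Matrix.SpecialLinearGroup
open scoped MatrixGroups OnePoint
open P2MW.S_ModularForm_heckeT_slash_eq_self_of_mem_Gamma0.ModularForm.HeckeSlashInvariance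

noncomputable section

namespace Fermat.Agent.GAL.HeckeCompare

open Fermat.Agent.GAL.HeckeHom Fermat.Agent.JAN

/-- The transfer as a product over an abstract transitive (right) `G`-set. -/
theorem transfer_eq_prod_cocycle {G : Type*} [Group G] {H : Subgroup G} [H.FiniteIndex]
    {A : Type*} [CommGroup A] {X : Type*} [Fintype X] (act : G → X → X)
    (hact : ∀ g h x, act (g * h) x = act h (act g x)) (hone : ∀ x, act 1 x = x)
    (o : X) (hH : ∀ g, g ∈ H ↔ act g o = o) (htrans : ∀ x, ∃ g, act g o = x)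
    (c : G → X → A) (hc : ∀ g h x, c (g * h) x = c g x * c h (act g x))
    (ϕ : H →* A) (hϕ : ∀ h : H, ϕ h = c h o) (g : G) :
    MonoidHom.transfer ϕ g = ∏ x, c g x := by
  let _ := H.fintypeQuotientOfFiniteIndex
  let T : H.LeftTransversal := default
  let α : G ⧸ H → G := fun q => (T.2.leftQuotientEquiv q : G)
  have hα : ∀ q, (α q : G ⧸ H) = q := fun q => T.2.quotientGroupMk_leftQuotientEquiv q
  let e : G ⧸ H → X := fun q => act (α q)⁻¹ o
  have he : Function.Bijective e := by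
    constructor
    · intro q r hqr
      have h1 : act ((α q)⁻¹ * α r) o = o := by
        rw [hact]
        show act (α r) (e q) = o
        rw [hqr]
        show act (α r) (act (α r)⁻¹ o) = o
        rw [← hact, inv_mul_cancel, hone]
      rw [← hα q, ← hα r]
      exact QuotientGroup.eq.mpr ((hH _).mpr h1)
    · intro x
      obtain ⟨r, hr⟩ := htrans x
      refine ⟨(r⁻¹ : G), ?_⟩
      have h1 : r * α (r⁻¹ : G) ∈ H := by
        have := QuotientGroup.eq.mp (hα (r⁻¹ : G)).symm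
        rwa [inv_inv] at this
      have h2 : (r * α (r⁻¹ : G))⁻¹ ∈ H := inv_mem h1
      show act (α (r⁻¹ : G))⁻¹ o = x
      have h3 : (α (r⁻¹ : G))⁻¹ = (r * α (r⁻¹ : G))⁻¹ * r := by group
      rw [h3, hact, (hH _).mp h2, hr]
  rw [MonoidHom.transfer_def ϕ T g, Subgroup.leftTransversals.diff]
  have hterm : ∀ q : G ⧸ H, ∀ (h : (α q)⁻¹ * ((g • T).2.leftQuotientEquiv q : G) ∈ H),
      ϕ ⟨(α q)⁻¹ * ((g • T).2.leftQuotientEquiv q : G), h⟩ =
        c (α q)⁻¹ o * c g (e q) * (c (α (g⁻¹ • q))⁻¹ o)⁻¹ := by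
    intro q h
    have h1 : ((g • T).2.leftQuotientEquiv q : G) = g * α (g⁻¹ • q) :=
      Subgroup.smul_apply_eq_smul_apply_inv_smul g T q
    rw [hϕ]
    show c ((α q)⁻¹ * ((g • T).2.leftQuotientEquiv q : G)) o = _
    rw [eq_mul_inv_iff_mul_eq]
    have h2 : act ((α q)⁻¹ * ((g • T).2.leftQuotientEquiv q : G)) o = o := (hH _).mp h
    have h3 := hc ((α q)⁻¹ * ((g • T).2.leftQuotientEquiv q : G)) (α (g⁻¹ • q))⁻¹ o
    rw [h2] at h3
    rw [← h3, h1]
    have h4 : (α q)⁻¹ * (g * α (g⁻¹ • q)) * (α (g⁻¹ • q))⁻¹ = (α q)⁻¹ * g := by group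
    rw [h4, hc]
  refine (Finset.prod_congr rfl fun q _ => hterm q _).trans ?_
  rw [Finset.prod_mul_distrib, Finset.prod_mul_distrib]
  have h5 : ∏ q : G ⧸ H, (c (α (g⁻¹ • q))⁻¹ o)⁻¹ = (∏ q : G ⧸ H, c (α q)⁻¹ o)⁻¹ := by
    rw [← Finset.prod_inv_distrib]
    exact Equiv.prod_comp (MulAction.toPerm g⁻¹) fun q => (c (α q)⁻¹ o)⁻¹
  rw [h5, mul_comm (∏ q : G ⧸ H, c (α q)⁻¹ o), mul_assoc, mul_inv_cancel, mul_one]
  exact Function.Bijective.prod_comp he fun x => c g x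

section

variable {N ℓ : ℕ} [Fact ℓ.Prime]

theorem mem_subGamma0_iff (hℓN : ¬ ℓ ∣ N) (g : Gamma0 N) :
    g ∈ subGamma0 N ℓ ↔ redMatrix ℓ (g : SL(2, ℤ)) • (∞ : OnePoint (ZMod ℓ)) = ∞ := by
  have hN : (N : ℤ) ∣ (g : SL(2, ℤ)) 1 0 :=
    (ZMod.intCast_zmod_eq_zero_iff_dvd _ _).mp (Gamma0_mem.mp g.2)
  rw [OnePoint.smul_infty_eq_ite, redMatrix_apply_one_zero]
  have h1 : g ∈ subGamma0 N ℓ ↔ ((N * ℓ : ℕ) : ℤ) ∣ (g : SL(2, ℤ)) 1 0 := by
    rw [Subgroup.mem_subgroupOf, Gamma0_mem, ZMod.intCast_zmod_eq_zero_iff_dvd]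
  have hcop : IsCoprime (N : ℤ) (ℓ : ℤ) :=
    Nat.isCoprime_iff_coprime.mpr ((Nat.Prime.coprime_iff_not_dvd Fact.out).mpr hℓN).symm
  rw [h1]
  constructor
  · intro h
    have h2 : (ℓ : ℤ) ∣ (g : SL(2, ℤ)) 1 0 :=
      (Dvd.intro_left (N : ℤ) (by push_cast; ring)).trans h
    rw [if_pos ((ZMod.intCast_zmod_eq_zero_iff_dvd _ _).mpr h2)]
  · intro h
    by_cases h2 : (((g : SL(2, ℤ)) 1 0 : ℤ) : ZMod ℓ) = 0
    · have h3 := (ZMod.intCast_zmod_eq_zero_iff_dvd _ _).mp h2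
      push_cast
      exact hcop.mul_dvd hN h3
    · rw [if_neg h2] at h
      exact absurd h (OnePoint.coe_ne_infty _)

theorem cocyc_infty (hℓN : ¬ ℓ ∣ N) (h : subGamma0 N ℓ) :
    cocyc hℓN (h : Gamma0 N) ∞ = conjHom' N ℓ h := by
  have hfix := (mem_subGamma0_iff hℓN (h : Gamma0 N)).mp h.2
  apply cocyc_eq_of
  rw [hfix, heckeRep_infty]
  have hℓ0 : (ℓ : ℤ) ≠ 0 := by exact_mod_cast (Fact.out : ℓ.Prime).ne_zero
  have hℓ0' : (ℓ : ℝ) ≠ 0 := by exact_mod_cast (Fact.out : ℓ.Prime).ne_zero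
  have hℓ1 : ℓ ≠ 0 := (Fact.out : ℓ.Prime).ne_zero
  have hdvd : (ℓ : ℤ) ∣ ((h : Gamma0 N) : SL(2, ℤ)) 1 0 := by
    have h1 := Gamma0_mem.mp (Subgroup.mem_subgroupOf.mp h.2)
    rw [ZMod.intCast_zmod_eq_zero_iff_dvd] at h1
    exact (Dvd.intro_left (N : ℤ) (by push_cast; ring)).trans h1
  obtain ⟨e, he⟩ := hdvd
  have key : ∀ i j, ((conjHom' N ℓ h : Gamma0 N) : SL(2, ℤ)) i j =
      conjMat ℓ (((h : Gamma0 N) : SL(2, ℤ)) : Matrix (Fin 2) (Fin 2) ℤ) i j := fun i j => rfl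
  ext i j
  fin_cases i <;> fin_cases j <;>
    simp [Matrix.mul_apply, Fin.sum_univ_two, key, conjMat, hℓ1, he, Int.mul_ediv_cancel_left _ hℓ0]
    <;> ring

theorem exists_smul_infty (hℓN : ¬ ℓ ∣ N) (x : OnePoint (ZMod ℓ)) :
    ∃ g : Gamma0 N, redMatrix ℓ (g : SL(2, ℤ)) • (∞ : OnePoint (ZMod ℓ)) = x := by
  induction x using OnePoint.rec with
  | infty => exact ⟨1, by rw [Subgroup.coe_one, redMatrix_one, one_smul]⟩
  | coe j =>
    have hcop : Nat.Coprime N ℓ := ((Nat.Prime.coprime_iff_not_dvd Fact.out).mpr hℓN).symm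
    obtain ⟨d, hd1, hd2⟩ := Nat.chineseRemainder hcop 1 (j * (N : ZMod ℓ)).val
    have hdN : Nat.Coprime d N := by
      have := hd1.gcd_eq
      rw [Nat.gcd_comm] at this
      rw [Nat.Coprime, Nat.gcd_comm, this, Nat.gcd_one_left]
    have hco : IsCoprime (d : ℤ) (N : ℤ) := Nat.isCoprime_iff_coprime.mpr hdN
    obtain ⟨u, v, huv⟩ := hco
    have hdet : (!![u, -v; (N : ℤ), (d : ℤ)] : Matrix (Fin 2) (Fin 2) ℤ).det = 1 := by
      rw [Matrix.det_fin_two_of]; linear_combination huv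
    refine ⟨⟨(⟨!![u, -v; (N : ℤ), (d : ℤ)], hdet⟩ : SL(2, ℤ)), Gamma0_mem.mpr ?_⟩, ?_⟩
    · show (((N : ℤ)) : ZMod N) = 0
      simp
    · rw [OnePoint.smul_infty_eq_ite, redMatrix_apply_one_zero, redMatrix_apply_zero_zero]
      have hN0 : (((N : ℤ) : ℤ) : ZMod ℓ) ≠ 0 := by
        rw [Ne, ZMod.intCast_zmod_eq_zero_iff_dvd]
        exact_mod_cast hℓN
      refine (if_neg hN0).trans ?_
      have h1 : ((d : ℤ) : ZMod ℓ) = j * (N : ZMod ℓ) := by
        have h2 := (ZMod.natCast_eq_natCast_iff _ _ _).mpr hd2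
        rw [ZMod.natCast_zmod_val] at h2
        rw [← h2]
        norm_cast
      have h3 : ((d : ℤ) : ZMod ℓ) / ((N : ℤ) : ZMod ℓ) = j := by
        rw [h1, div_eq_iff hN0]
        norm_cast
      exact congrArg _ h3

theorem transfer_conjHom (hℓN : ¬ ℓ ∣ N) [NeZero N] {A : Type*} [CommGroup A]
    (χ : Gamma0 N →* A) (g : Gamma0 N) :
    heckeChar N ℓ χ g = ∏ x : OnePoint (ZMod ℓ), χ (cocyc hℓN g x) := by
  rw [heckeChar]
  refine transfer_eq_prod_cocycle (fun (g : Gamma0 N) (x : OnePoint (ZMod ℓ)) =>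
      redMatrix ℓ (g : SL(2, ℤ)) • x) ?_ ?_ ∞ (mem_subGamma0_iff hℓN) (exists_smul_infty hℓN)
      (fun g x => χ (cocyc hℓN g x)) ?_ _ ?_ g
  · intro g h x
    show redMatrix ℓ ((g * h : Gamma0 N) : SL(2, ℤ)) • x = _
    rw [Subgroup.coe_mul, redMatrix_mul, mul_smul]
  · intro x
    show redMatrix ℓ ((1 : Gamma0 N) : SL(2, ℤ)) • x = _
    rw [Subgroup.coe_one, redMatrix_one, one_smul]
  · intro g h x
    show χ (cocyc hℓN (g * h) x) = _
    rw [cocyc_mul, map_mul]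
  · intro h
    show χ (conjHom' N ℓ h) = χ (cocyc hℓN (h : Gamma0 N) ∞)
    rw [cocyc_infty]

end

/-- helper76's transfer operator agrees with `heckeHom` for `ℓ ∤ N`. -/
theorem heckeAdd_eq_heckeHom {N ℓ : ℕ} [NeZero N] [NeZero ℓ] (hℓ : ℓ.Prime) (hℓN : ¬ ℓ ∣ N)
    {A : Type*} [AddCommGroup A] (ψ : Additive (Gamma0 N) →+ A) :
    heckeAdd N ℓ ψ = heckeHom hℓ hℓN ψ := by
  have : Fact ℓ.Prime := ⟨hℓ⟩
  refine AddMonoidHom.ext fun g => ?_
  obtain ⟨g, rfl⟩ := Additive.ofMul.surjective g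
  rw [heckeHom_apply]
  have h := transfer_conjHom (ℓ := ℓ) hℓN (AddMonoidHom.toMultiplicativeRight ψ) g
  exact congrArg Multiplicative.toAdd h

/-! ### Stability of `XN` -/

theorem sq_eq (A : Matrix (Fin 2) (Fin 2) ℤ) (hA : A.det = 1) :
    A * A = A.trace • A - 1 := by
  have h := A.det_fin_two
  rw [hA] at h
  ext i j
  rw [Matrix.mul_apply, Fin.sum_univ_two, Matrix.sub_apply, Matrix.smul_apply,
    Matrix.trace_fin_two, smul_eq_mul]
  fin_cases i <;> fin_cases j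
  · show A 0 0 * A 0 0 + A 0 1 * A 1 0 = (A 0 0 + A 1 1) * A 0 0 - 1
    linarith
  · show A 0 0 * A 0 1 + A 0 1 * A 1 1 = (A 0 0 + A 1 1) * A 0 1 - 0
    linarith
  · show A 1 0 * A 0 0 + A 1 1 * A 1 0 = (A 0 0 + A 1 1) * A 1 0 - 0
    linarith
  · show A 1 0 * A 0 1 + A 1 1 * A 1 1 = (A 0 0 + A 1 1) * A 1 1 - 1
    linarith

theorem trace_pow_rec (A : Matrix (Fin 2) (Fin 2) ℤ) (hA : A.det = 1) (m : ℕ) :
    (A ^ (m + 2)).trace = A.trace * (A ^ (m + 1)).trace - (A ^ m).trace := by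
  have h : A ^ (m + 2) = A.trace • A ^ (m + 1) - A ^ m := by
    rw [pow_add, pow_two, sq_eq A hA, mul_sub, mul_one, Matrix.mul_smul, pow_succ]
  rw [h, Matrix.trace_sub, Matrix.trace_smul, smul_eq_mul]

theorem trace_pow_sq_le (A : Matrix (Fin 2) (Fin 2) ℤ) (hA : A.det = 1)
    (h : A.trace ^ 2 ≤ 4) (m : ℕ) : (A ^ m).trace ^ 2 ≤ 4 := by
  have key : ∀ m : ℕ, (A ^ m).trace ^ 2 ≤ 4 ∧
      (A ^ m).trace ^ 2 - A.trace * (A ^ m).trace * (A ^ (m + 1)).trace +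
        (A ^ (m + 1)).trace ^ 2 = 4 - A.trace ^ 2 := by
    intro m
    induction m with
    | zero =>
      refine ⟨by simp [Matrix.trace_one], ?_⟩
      rw [pow_zero, zero_add, pow_one, Matrix.trace_one]
      simp only [Fintype.card_fin]
      push_cast
      ring
    | succ m ih =>
      obtain ⟨h1, h2⟩ := ih
      have h3 := trace_pow_rec A hA m
      have h4 : (A ^ (m + 1)).trace ^ 2 -
          A.trace * (A ^ (m + 1)).trace * (A ^ (m + 1 + 1)).trace +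
          (A ^ (m + 1 + 1)).trace ^ 2 = 4 - A.trace ^ 2 := by
        rw [show m + 1 + 1 = m + 2 from rfl, h3]
        linear_combination h2
      refine ⟨?_, h4⟩
      rcases h.lt_or_eq with h5 | h5
      · -- `(4 - t²)(4 - u²) ≥ 0`
        have h6 : (4 - A.trace ^ 2) * (4 - (A ^ (m + 1)).trace ^ 2) =
            (2 * (A ^ (m + 1 + 1)).trace - A.trace * (A ^ (m + 1)).trace) ^ 2 := by
          linear_combination (-4) * h4
        have h7 : 0 ≤ (4 - A.trace ^ 2) * (4 - (A ^ (m + 1)).trace ^ 2) := by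
          rw [h6]; positivity
        have h8 : 0 < 4 - A.trace ^ 2 := by linarith
        have h9 := nonneg_of_mul_nonneg_right h7 h8
        linarith
      · have h6 : (2 * (A ^ (m + 1)).trace - A.trace * (A ^ m).trace) ^ 2 = 0 := by
          linear_combination 4 * h2 + (A ^ m).trace ^ 2 * h5 - 4 * h5
        have h7 : 2 * (A ^ (m + 1)).trace = A.trace * (A ^ m).trace := by
          have := pow_eq_zero_iff (two_ne_zero) |>.mp h6
          linarith
        have h8 : 4 * (A ^ (m + 1)).trace ^ 2 = 4 * (A ^ m).trace ^ 2 := by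
          linear_combination (2 * (A ^ (m + 1)).trace + A.trace * (A ^ m).trace) * h7 +
            (A ^ m).trace ^ 2 * h5
        linarith
  exact (key m).1

theorem heckeAdd_mem_XN {N ℓ n : ℕ} [NeZero N] [NeZero ℓ] {ψ : Additive (Gamma0 N) →+ ZMod n}
    (hψ : ψ ∈ XN N n) : heckeAdd N ℓ ψ ∈ XN N n := by
  intro γ hγ
  have h1 : heckeChar N ℓ (AddMonoidHom.toMultiplicativeRight ψ) γ = 1 := by
    classical
    have : Fintype (Quotient (MulAction.orbitRel (Subgroup.zpowers γ)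
      (Gamma0 N ⧸ subGamma0 N ℓ))) := Fintype.ofFinite _
    rw [heckeChar, MonoidHom.transfer_eq_prod_quotient_orbitRel_zpowers_quot]
    refine Finset.prod_eq_one fun q _ => ?_
    set m := Function.minimalPeriod (γ • ·) q.out
    set r : Gamma0 N := q.out.out
    refine congrArg Multiplicative.ofAdd (hψ _ ?_)
    have h2 : (((conjHom' N ℓ ⟨r⁻¹ * γ ^ m * r, QuotientGroup.out_conj_pow_minimalPeriod_mem
        (subGamma0 N ℓ) γ q.out⟩ : Gamma0 N) : SL(2, ℤ)) : Matrix (Fin 2) (Fin 2) ℤ).trace =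
        ((((r⁻¹ * γ ^ m * r : Gamma0 N) : SL(2, ℤ))) : Matrix (Fin 2) (Fin 2) ℤ).trace := by
      rw [Matrix.trace_fin_two, Matrix.trace_fin_two]
      rfl
    have h3 : ((((r⁻¹ * γ ^ m * r : Gamma0 N) : SL(2, ℤ))) : Matrix (Fin 2) (Fin 2) ℤ).trace =
        (((γ : SL(2, ℤ)) : Matrix (Fin 2) (Fin 2) ℤ) ^ m).trace := by
      rw [Subgroup.coe_mul, Subgroup.coe_mul, Matrix.SpecialLinearGroup.coe_mul,
        Matrix.trace_mul_comm, ← Matrix.SpecialLinearGroup.coe_mul, ← mul_assoc,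
        Subgroup.coe_inv, mul_inv_cancel, one_mul, Subgroup.coe_pow,
        Matrix.SpecialLinearGroup.coe_pow]
    rw [h2, h3]
    exact trace_pow_sq_le _ (γ : SL(2, ℤ)).2 hγ m
  exact congrArg Multiplicative.toAdd h1

end Fermat.Agent.GAL.HeckeCompare
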