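import Mathlib.NumberTheory.ModularForms.CongruenceSubgroups
import Fermat.Prelude.Sol.S_ModularForm_heckeT_slash_eq_self_of_mem_Gamma0

/-!
# The Hecke operator `T_ℓ` on homomorphisms `Γ₀(N) → A` (transfer)
-/

set_option autoImplicit false

open CongruenceSubgroup Matrix.SpecialLinearGroup
open scoped MatrixGroups OnePoint
open P2MW.S_ModularForm_heckeT_slash_eq_self_of_mem_Gamma0.ModularForm.HeckeSlashInvariance

noncomputable section

namespace Fermat.Agent.GAL.HeckeHom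

variable {N ℓ : ℕ}

theorem mapGL_injective : Function.Injective (mapGL ℝ : SL(2, ℤ) →* GL (Fin 2) ℝ) := by
  intro a b h
  ext i j
  have := congrArg (fun M : GL (Fin 2) ℝ => M i j) h
  simp only [mapGL_apply] at this
  exact_mod_cast this

section

variable [Fact ℓ.Prime]

theorem exists_cocyc (hℓN : ¬ ℓ ∣ N) (g : Gamma0 N) (x : OnePoint (ZMod ℓ)) :
    ∃ g' : Gamma0 N, heckeRep ℓ x * mapGL ℝ (g : SL(2, ℤ)) =
      mapGL ℝ (g' : SL(2, ℤ)) * heckeRep ℓ (redMatrix ℓ (g : SL(2, ℤ)) • x) := by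
  have hg : (N : ℤ) ∣ (g : SL(2, ℤ)) 1 0 :=
    (ZMod.intCast_zmod_eq_zero_iff_dvd _ _).mp (Gamma0_mem.mp g.2)
  obtain ⟨g', hg', h⟩ := heckeRep_mul hℓN (g : SL(2, ℤ)) hg x
  exact ⟨⟨g', Gamma0_mem.mpr ((ZMod.intCast_zmod_eq_zero_iff_dvd _ _).mpr hg')⟩, h⟩

/-- the cocycle `δ(g, x)` with `α_x g = δ(g, x) α_{g x}`. -/
def cocyc (hℓN : ¬ ℓ ∣ N) (g : Gamma0 N) (x : OnePoint (ZMod ℓ)) : Gamma0 N :=
  (exists_cocyc hℓN g x).choose

theorem cocyc_spec (hℓN : ¬ ℓ ∣ N) (g : Gamma0 N) (x : OnePoint (ZMod ℓ)) :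
    heckeRep ℓ x * mapGL ℝ (g : SL(2, ℤ)) =
      mapGL ℝ (cocyc hℓN g x : SL(2, ℤ)) * heckeRep ℓ (redMatrix ℓ (g : SL(2, ℤ)) • x) :=
  (exists_cocyc hℓN g x).choose_spec

theorem redMatrix_mul (g h : SL(2, ℤ)) : redMatrix ℓ (g * h) = redMatrix ℓ h * redMatrix ℓ g := by
  ext i j
  fin_cases i <;> fin_cases j <;>
    simp [Matrix.mul_apply, Fin.sum_univ_two] <;> ring

theorem redMatrix_one : redMatrix ℓ (1 : SL(2, ℤ)) = 1 := by
  ext i j
  fin_cases i <;> fin_cases j <;> simp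

theorem cocyc_eq_of (hℓN : ¬ ℓ ∣ N) {g : Gamma0 N} {x : OnePoint (ZMod ℓ)} {g' : Gamma0 N}
    (h : heckeRep ℓ x * mapGL ℝ (g : SL(2, ℤ)) =
      mapGL ℝ (g' : SL(2, ℤ)) * heckeRep ℓ (redMatrix ℓ (g : SL(2, ℤ)) • x)) :
    cocyc hℓN g x = g' := by
  have h2 := (cocyc_spec hℓN g x).symm.trans h
  exact Subtype.ext (mapGL_injective (mul_right_cancel h2))

theorem cocyc_mul (hℓN : ¬ ℓ ∣ N) (g h : Gamma0 N) (x : OnePoint (ZMod ℓ)) :
    cocyc hℓN (g * h) x = cocyc hℓN g x * cocyc hℓN h (redMatrix ℓ (g : SL(2, ℤ)) • x) := by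
  apply cocyc_eq_of
  have h1 := cocyc_spec hℓN g x
  have h2 := cocyc_spec hℓN h (redMatrix ℓ (g : SL(2, ℤ)) • x)
  rw [Subgroup.coe_mul, map_mul, ← mul_assoc, h1, mul_assoc, h2, redMatrix_mul, mul_smul,
    Subgroup.coe_mul, map_mul, mul_assoc]

theorem cocyc_one (hℓN : ¬ ℓ ∣ N) (x : OnePoint (ZMod ℓ)) :
    cocyc hℓN (1 : Gamma0 N) x = 1 := by
  apply cocyc_eq_of
  rw [Subgroup.coe_one, map_one, redMatrix_one, one_smul, one_mul, mul_one]

end

/-- **The Hecke operator `T_ℓ` (transfer) on `Hom(Γ₀(N), A)`**, `ℓ ∤ N`. -/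
def heckeHom (hℓ : ℓ.Prime) (hℓN : ¬ ℓ ∣ N) {A : Type*} [AddCommGroup A] :
    (Additive (Gamma0 N) →+ A) →+ (Additive (Gamma0 N) →+ A) :=
  haveI : Fact ℓ.Prime := ⟨hℓ⟩
  haveI : NeZero ℓ := ⟨hℓ.ne_zero⟩
  { toFun := fun φ =>
      { toFun := fun g => ∑ x : OnePoint (ZMod ℓ),
          φ (Additive.ofMul (cocyc hℓN (Additive.toMul g) x))
        map_zero' := by
          refine Finset.sum_eq_zero fun x _ => ?_
          rw [toMul_zero, cocyc_one, ofMul_one, map_zero]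
        map_add' := fun g h => by
          have h1 : ∀ x : OnePoint (ZMod ℓ),
              φ (Additive.ofMul (cocyc hℓN (Additive.toMul (g + h)) x)) =
              φ (Additive.ofMul (cocyc hℓN (Additive.toMul g) x)) +
              φ (Additive.ofMul (cocyc hℓN (Additive.toMul h)
                (redMatrix ℓ ((Additive.toMul g : Gamma0 N) : SL(2, ℤ)) • x))) := by
            intro x
            rw [toMul_add, cocyc_mul, ofMul_mul, map_add]
          simp_rw [h1]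
          rw [Finset.sum_add_distrib]
          congr 1
          exact Equiv.sum_comp (MulAction.toPerm
            (redMatrix ℓ ((Additive.toMul g : Gamma0 N) : SL(2, ℤ))))
            (fun x => φ (Additive.ofMul (cocyc hℓN (Additive.toMul h) x))) }
    map_zero' := by
      ext g
      simp
    map_add' := fun φ ψ => by
      ext g
      simp [Finset.sum_add_distrib] }

theorem heckeHom_apply (hℓ : ℓ.Prime) (hℓN : ¬ ℓ ∣ N) {A : Type*} [AddCommGroup A]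
    (φ : Additive (Gamma0 N) →+ A) (g : Gamma0 N) :
    heckeHom hℓ hℓN φ (Additive.ofMul g) =
      haveI : Fact ℓ.Prime := ⟨hℓ⟩
      haveI : NeZero ℓ := ⟨hℓ.ne_zero⟩
      ∑ x : OnePoint (ZMod ℓ), φ (Additive.ofMul (cocyc hℓN g x)) := rfl

theorem heckeHom_comp (hℓ : ℓ.Prime) (hℓN : ¬ ℓ ∣ N) {A B : Type*} [AddCommGroup A] [AddCommGroup B]
    (f : A →+ B) (φ : Additive (Gamma0 N) →+ A) :
    heckeHom hℓ hℓN (f.comp φ) = f.comp (heckeHom hℓ hℓN φ) := by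
  refine AddMonoidHom.ext fun g => ?_
  obtain ⟨g, rfl⟩ := Additive.ofMul.surjective g
  rw [AddMonoidHom.comp_apply, heckeHom_apply, heckeHom_apply, map_sum]
  rfl

end Fermat.Agent.GAL.HeckeHom
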