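import Fermat.Agent.GAL.SupportWiring
import Fermat.Agent.GAL.HeckeCompare

/-!
# `HomSupport N (JZero N)` from the JAN main theorem (in terms of `XN` and `heckeAdd`)
-/

set_option autoImplicit false
set_option linter.style.haveILetI false

open CongruenceSubgroup ModularCurve
open scoped MatrixGroups

noncomputable section

namespace Fermat.Agent.GAL

open HeckeHom HeckeCompare Fermat.Agent.JAN

theorem parEll_eq_XN (N n : ℕ) : parEll N (ZMod n) = XN N n := rfl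

/-- **JAN ⇒ `HomSupport`**. -/
theorem homSupport_of_XN {N : ℕ} [NeZero N] (hcomm : HeckeOperatorsCommuteBar N)
    (h : ∀ n : ℕ, 0 < n → ∃ Φ : XN N n →+ JZero N, Function.Injective Φ ∧
      ∀ (ℓ : Nat.Primes), ¬ (ℓ : ℕ) ∣ N → ∀ ψ : XN N n,
        Φ ⟨(haveI : NeZero (ℓ : ℕ) := ⟨ℓ.2.ne_zero⟩; heckeAdd N ℓ (ψ : Additive (Gamma0 N) →+ ZMod n)),
          haveI : NeZero (ℓ : ℕ) := ⟨ℓ.2.ne_zero⟩; heckeAdd_mem_XN ψ.2⟩ =
          heckeOperatorBar N ℓ (Φ ψ)) :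
    letI := heckeModuleBar N
    HomSupport N (JZero N) := by
  refine homSupport_JZero hcomm fun n hn => ?_
  obtain ⟨Φ, hinj, hT⟩ := h n hn
  refine ⟨Φ, hinj, fun ℓ hℓ hℓN φ ψ hψ => ?_⟩
  have : NeZero ℓ := ⟨hℓ.ne_zero⟩
  have h1 := hT ⟨ℓ, hℓ⟩ hℓN φ
  refine Eq.trans ?_ h1
  refine congrArg Φ (Subtype.ext ?_)
  exact hψ.trans (heckeAdd_eq_heckeHom hℓ hℓN _).symm

end Fermat.Agent.GAL
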