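import Fermat.Agent.S22.Sep
import Fermat.Agent.GAL.HeckeHom

/-!
# Period functionals of weight two cusp forms on `Γ₀(N)` and their lattice
-/

set_option autoImplicit false

open UpperHalfPlane Complex Filter Topology Function Matrix.SpecialLinearGroup CongruenceSubgroup
open scoped Manifold MatrixGroups ModularForm OnePoint
open P2MW.S_ModularForm_heckeT_slash_eq_self_of_mem_Gamma0.ModularForm.HeckeSlashInvariance
open Fermat.Agent.EichlerInt Fermat.Agent.GAL.HeckeHom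

noncomputable section

namespace Fermat.Agent.GAL.PeriodLattice

/-- change of variables for primitives -/
theorem isPrim_comp_smul (g : GL (Fin 2) ℝ) (hg : 0 < g.det.val) {f F : ℍ → ℂ}
    (hF : IsPrim f F) : IsPrim (f ∣[(2 : ℤ)] g) (fun τ => F (g • τ)) := by
  intro τ
  have hg' : 0 < g.val.det := hg
  have h1 := hF (g • τ)
  have h2 := (hasStrictDerivAt_smul hg' τ).hasDerivAt
  have h3 : (F ∘ ofComplex) ∘ (fun z : ℂ => ((g • ofComplex z : ℍ) : ℂ)) =
      (fun z => F (g • ofComplex z)) := by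
    funext z
    simp only [comp_apply, ofComplex_apply]
  have h4 : HasDerivAt (F ∘ ofComplex) (f (g • τ))
      ((fun z : ℂ => ((g • ofComplex z : ℍ) : ℂ)) (τ : ℂ)) := by
    simp only [ofComplex_apply]
    exact h1
  have h5 := h4.comp (τ : ℂ) h2
  rw [h3] at h5
  refine h5.congr_deriv ?_
  have hd : denom g τ ≠ 0 := denom_ne_zero g τ
  rw [ModularForm.slash_apply, σ, if_pos hg]
  simp only [ContinuousAlgEquiv.refl_apply]
  rw [abs_of_pos hg]
  have h7 : denom g τ ^ (-(2 : ℤ)) = (denom g τ ^ 2)⁻¹ := by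
    rw [zpow_neg]
    congr 1
  have h6 : ((2 : ℤ) - 1) = 1 := by norm_num
  rw [h6, zpow_one, h7]
  have h8 : (g.val.det : ℂ) = (g.det.val : ℂ) := rfl
  rw [h8]
  field_simp

variable (N : ℕ) [NeZero N]

/-- the primitive of `f` vanishing at `i∞`. -/
def primOf : CuspForm (Gamma0 N) 2 →ₗ[ℂ] cuspLike := prim ∘ₗ sl 2 1 ∘ₗ toGood N 2

variable {N}

theorem isPrim_primOf (f : CuspForm (Gamma0 N) 2) : IsPrim f (primOf N f : ℍ → ℂ) := by
  have h := isPrim_prim (sl 2 1 (toGood N 2 f))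
  rw [coe_sl, coe_toGood, SlashAction.slash_one] at h
  exact h

theorem slash_eq (f : CuspForm (Gamma0 N) 2) (γ : Gamma0 N) :
    (f : ℍ → ℂ) ∣[(2 : ℤ)] (mapGL ℝ (γ : SL(2, ℤ)) : GL (Fin 2) ℝ) = f :=
  f.slash_action_eq' _ (Subgroup.mem_map_of_mem (mapGL ℝ) γ.2)

theorem det_mapGL_pos (γ : SL(2, ℤ)) : 0 < (mapGL ℝ γ : GL (Fin 2) ℝ).det.val := by
  rw [det_mapGL_val]; exact one_pos

/-- any primitive of `f` is equivariant up to constants under `Γ₀(N)`. -/
theorem exists_const {f : CuspForm (Gamma0 N) 2} {F : ℍ → ℂ} (hF : IsPrim f F) (γ : Gamma0 N) :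
    ∃ c : ℂ, ∀ τ : ℍ, F ((γ : SL(2, ℤ)) • τ) = F τ + c := by
  have h1 := isPrim_comp_smul (mapGL ℝ (γ : SL(2, ℤ))) (det_mapGL_pos _) hF
  rw [slash_eq] at h1
  obtain ⟨c, hc⟩ := eq_add_const_of_isPrim h1 hF
  exact ⟨c, fun τ => hc τ⟩

/-- period functional `f ↦ ∫_{i}^{γ i} f(z) dz`. -/
def perFun (γ : Gamma0 N) : CuspForm (Gamma0 N) 2 →ₗ[ℂ] ℂ :=
  (ev ((γ : SL(2, ℤ)) • UpperHalfPlane.I) - ev UpperHalfPlane.I) ∘ₗ primOf N

theorem perFun_apply (γ : Gamma0 N) (f : CuspForm (Gamma0 N) 2) :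
    perFun γ f = (primOf N f : ℍ → ℂ) ((γ : SL(2, ℤ)) • UpperHalfPlane.I) -
      (primOf N f : ℍ → ℂ) UpperHalfPlane.I := rfl

/-- the period can be computed with any primitive and any base point. -/
theorem sub_eq_perFun {f : CuspForm (Gamma0 N) 2} {F : ℍ → ℂ} (hF : IsPrim f F) (γ : Gamma0 N)
    (τ : ℍ) : F ((γ : SL(2, ℤ)) • τ) - F τ = perFun γ f := by
  obtain ⟨c, hc⟩ := eq_add_const_of_isPrim hF (isPrim_primOf f)
  obtain ⟨d, hd⟩ := exists_const (isPrim_primOf f) γ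
  rw [perFun_apply, hc, hc, hd, hd]
  ring

variable (N) in
/-- periods as a homomorphism `Γ₀(N) → S₂(Γ₀(N))^*`. -/
def perHom : Additive (Gamma0 N) →+ (CuspForm (Gamma0 N) 2 →ₗ[ℂ] ℂ) where
  toFun γ := perFun (Additive.toMul γ)
  map_zero' := by
    ext f
    rw [perFun_apply, toMul_zero, Subgroup.coe_one, one_smul, sub_self, LinearMap.zero_apply]
  map_add' γ δ := by
    ext f
    rw [LinearMap.add_apply, toMul_add, perFun_apply, Subgroup.coe_mul, mul_smul,
      ← sub_eq_perFun (isPrim_primOf f) (Additive.toMul γ)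
        (((Additive.toMul δ : Gamma0 N) : SL(2, ℤ)) • UpperHalfPlane.I),
      ← sub_eq_perFun (isPrim_primOf f) (Additive.toMul δ) UpperHalfPlane.I]
    ring

theorem perHom_ofMul (γ : Gamma0 N) : perHom N (Additive.ofMul γ) = perFun γ := rfl

/-- **Hecke equivariance of the periods.** -/
theorem perHom_comp_heckeTLin {ℓ : ℕ} (hℓ : ℓ.Prime) (hℓN : ¬ ℓ ∣ N) (γ : Additive (Gamma0 N)) :
    perHom N γ ∘ₗ CuspForm.heckeTLin 2 hℓ hℓN = heckeHom hℓ hℓN (perHom N) γ := by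
  have : Fact ℓ.Prime := ⟨hℓ⟩
  have : NeZero ℓ := ⟨hℓ.ne_zero⟩
  obtain ⟨γ, rfl⟩ := Additive.ofMul.surjective γ
  ext f
  rw [perHom_ofMul, heckeHom_apply, LinearMap.comp_apply, LinearMap.sum_apply]
  set F : ℍ → ℂ := (primOf N f : ℍ → ℂ) with hFdef
  have hF : IsPrim f F := isPrim_primOf f
  have hdet : ∀ x : OnePoint (ZMod ℓ), 0 < (heckeRep ℓ x).det.val := by
    intro x
    induction x using OnePoint.rec with
    | infty => exact ModularForm.det_heckeDiagMatrix_pos ℓ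
    | coe j => exact ModularForm.det_heckeMatrix_pos ℓ _
  set G : ℍ → ℂ := fun τ => ∑ x : OnePoint (ZMod ℓ), F (heckeRep ℓ x • τ) with hGdef
  have hG : IsPrim (CuspForm.heckeTLin 2 hℓ hℓN f : ℍ → ℂ) G := by
    intro τ
    rw [CuspForm.coe_heckeTLin_apply, heckeT_eq_sum_onePoint, Finset.sum_apply]
    have h1 : G ∘ ofComplex = fun z => ∑ x : OnePoint (ZMod ℓ),
        ((fun τ => F (heckeRep ℓ x • τ)) ∘ ofComplex) z := rfl
    rw [h1]
    exact HasDerivAt.fun_sum fun x _ => isPrim_comp_smul (heckeRep ℓ x) (hdet x) hF τ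
  rw [← sub_eq_perFun hG γ UpperHalfPlane.I]
  have h2 : ∀ x : OnePoint (ZMod ℓ),
      F (heckeRep ℓ x • ((γ : SL(2, ℤ)) • UpperHalfPlane.I)) =
      F (heckeRep ℓ (redMatrix ℓ (γ : SL(2, ℤ)) • x) • UpperHalfPlane.I) +
        perFun (cocyc hℓN γ x) f := by
    intro x
    have h3 : heckeRep ℓ x • ((γ : SL(2, ℤ)) • UpperHalfPlane.I) =
        (cocyc hℓN γ x : SL(2, ℤ)) • (heckeRep ℓ (redMatrix ℓ (γ : SL(2, ℤ)) • x) •
          UpperHalfPlane.I) := by
      have h4 : (heckeRep ℓ x * mapGL ℝ (γ : SL(2, ℤ))) • UpperHalfPlane.I =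
          (mapGL ℝ (cocyc hℓN γ x : SL(2, ℤ)) *
            heckeRep ℓ (redMatrix ℓ (γ : SL(2, ℤ)) • x)) • UpperHalfPlane.I := by
        rw [cocyc_spec]
      rw [mul_smul, mul_smul] at h4
      exact h4
    rw [h3, ← sub_eq_perFun hF (cocyc hℓN γ x)
      (heckeRep ℓ (redMatrix ℓ (γ : SL(2, ℤ)) • x) • UpperHalfPlane.I)]
    ring
  rw [hGdef]
  simp only
  simp_rw [h2]
  rw [Finset.sum_add_distrib]
  have h5 : ∑ x : OnePoint (ZMod ℓ), F (heckeRep ℓ (redMatrix ℓ (γ : SL(2, ℤ)) • x) •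
      UpperHalfPlane.I) = ∑ x : OnePoint (ZMod ℓ), F (heckeRep ℓ x • UpperHalfPlane.I) :=
    Equiv.sum_comp (MulAction.toPerm (redMatrix ℓ (γ : SL(2, ℤ))))
      (fun x => F (heckeRep ℓ x • UpperHalfPlane.I))
  rw [h5, add_sub_cancel_left]
  rfl

/-! ### separation -/

theorem eq_zero_of_perHom {f : CuspForm (Gamma0 N) 2}
    (h : ∀ γ : Additive (Gamma0 N), perHom N γ f = 0) : f = 0 := by
  set F : ℍ → ℂ := (primOf N f : ℍ → ℂ) with hFdef
  have hF : IsPrim f F := isPrim_primOf f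
  have hinv : ∀ (γ : Gamma0 N) (τ : ℍ), F ((γ : SL(2, ℤ)) • τ) = F τ := by
    intro γ τ
    have h1 := sub_eq_perFun hF γ τ
    have h2 : perFun γ f = 0 := h (Additive.ofMul γ)
    rw [h2, sub_eq_zero] at h1
    exact h1
  -- `F ∘ δ` is `prim (f|δ)` up to a constant
  have hbd : ∀ δ : SL(2, ℤ), IsBoundedAtImInfty (fun τ => F (δ • τ)) := by
    intro δ
    have h1 := isPrim_comp_smul (mapGL ℝ δ) (det_mapGL_pos _) hF
    have h2 := isPrim_prim (sl 2 δ (toGood N 2 f))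
    obtain ⟨c, hc⟩ := eq_add_const_of_isPrim h1 h2
    have h3 : (fun τ => F (δ • τ)) = (prim (sl 2 δ (toGood N 2 f)) : ℍ → ℂ) + fun _ => c := by
      funext τ
      exact hc τ
    rw [h3]
    exact Filter.BoundedAtFilter.add (prim (sl 2 δ (toGood N 2 f))).2.zero.isBoundedAtImInfty
      (Filter.const_boundedAtFilter _ c)
  let G : ModularForm (Gamma0 N) 0 :=
    { toFun := F
      slash_action_eq' := by
        rintro _ ⟨γ, hγ, rfl⟩
        funext τ
        have e1 : (F ∣[(0 : ℤ)] γ) τ = F (γ • τ) := by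
          rw [ModularForm.SL_slash_apply]
          simp
        have e2 : (F ∣[(0 : ℤ)] (mapGL ℝ γ : GL (Fin 2) ℝ)) τ = (F ∣[(0 : ℤ)] γ) τ := rfl
        rw [e2, e1]
        exact hinv ⟨γ, hγ⟩ τ
      holo' := hF.mdiff
      bdd_at_cusps' := by
        intro c hc
        have hc' : IsCusp c 𝒮ℒ := (Subgroup.IsArithmetic.isCusp_iff_isCusp_SL2Z _).mp hc
        rw [OnePoint.isBoundedAt_iff_forall_SL2Z hc']
        intro γ _
        have e1 : (F ∣[(0 : ℤ)] γ) = fun τ => F (γ • τ) := by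
          funext τ
          rw [ModularForm.SL_slash_apply]
          simp
        rw [e1]
        exact hbd γ }
  have hG : G = 0 := by
    apply ModularForm.sturm_bound_Gamma0
    intro m hm
    have hm0 : m = 0 := by
      simpa using hm
    subst hm0
    have hz := (primOf N f).2.zero
    have h1 : (1 : ℝ) ∈ (Gamma0 N : Subgroup (GL (Fin 2) ℝ)).strictPeriods :=
      CongruenceSubgroup.one_mem_strictPeriods_Gamma0 N
    have hper := SlashInvariantFormClass.periodic_comp_ofComplex G h1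
    rw [qExpansion_coeff_zero one_pos
      (ModularFormClass.analyticAt_cuspFunction_zero G one_pos h1) hper]
    exact hz.valueAtInfty_eq_zero
  have h2 : primOf N f = 0 := by
    apply Subtype.ext
    exact congrArg (fun g : ModularForm (Gamma0 N) 0 => (g : ℍ → ℂ)) hG
  have h3 : sl 2 1 (toGood N 2 f) = 0 := by
    apply prim_injective
    rw [map_zero]
    exact h2
  apply DFunLike.coe_injective
  have h4 := congrArg (fun g : cuspLike => (g : ℍ → ℂ)) h3
  simp only [coe_sl, coe_toGood, SlashAction.slash_one] at h4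
  exact h4

end Fermat.Agent.GAL.PeriodLattice
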