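import Mathlib
import Fermat.Prelude.Def_ModularCurve_HeckeModule
import Fermat.Prelude.Def_ModularCurve_EigenformIdeal
import Fermat.Agent.EichlerShimura.ResidualAttachment
import Fermat.Agent.GAL.Smooth
import Fermat.Agent.GAL.Inputs

/-!
# From specialization data to unramifiedness and the Frobenius quadratic relation

`SpecializationExists N p J` (the content of S37) implies `UnramifiedOutside N p J` and
`FrobeniusQuadratic N p J`.
-/

set_option autoImplicit false

noncomputable section

open ModularCurve

namespace Fermat.Agent.GAL.Specialize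

section General

variable {K L : Type*} [Field K] [Field L] [Algebra K L]
variable {N p : ℕ} {J : Type*} [AddCommGroup J] [Module HeckeAlg J]
  [DistribMulAction (L ≃ₐ[K] L) J] [SMulCommClass (L ≃ₐ[K] L) HeckeAlg J]

omit [Module HeckeAlg J] [SMulCommClass (L ≃ₐ[K] L) HeckeAlg J] in
theorem smul_nsmul_eq (σ : L ≃ₐ[K] L) (n : ℕ) (x : J) : n • (σ • x) = σ • (n • x) :=
  (map_nsmul (DistribSMul.toAddMonoidHom J σ) n x).symm

omit [SMulCommClass (L ≃ₐ[K] L) HeckeAlg J] in
/-- `SpecializationExists` implies that `p`-power torsion is unramified outside `Np`. -/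
theorem unramifiedOutside_of_specializationExists
    (h : SpecializationExists (K := K) (L := L) N p J) :
    UnramifiedOutside (K := K) (L := L) N p J := by
  intro ℓ hℓ hℓN A hA σ hσ x hx
  obtain ⟨J', _, _, sp, F, hsp, -⟩ := h ℓ hℓ hℓN A hA
  obtain ⟨n, hn⟩ := hx
  rw [← sub_eq_zero]
  refine hsp.injective_torsion _ ⟨n, ?_⟩ ?_
  · rw [smul_sub, smul_nsmul_eq, hn, smul_zero, sub_zero]
  · rw [map_sub, hsp.inertia_comm σ hσ x, sub_self]

omit [SMulCommClass (L ≃ₐ[K] L) HeckeAlg J] in
/-- `SpecializationExists` implies the Eichler–Shimura relation on `p`-power torsion. -/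
theorem frobeniusQuadratic_of_specializationExists
    (h : SpecializationExists (K := K) (L := L) N p J) :
    FrobeniusQuadratic (K := K) (L := L) N p J := by
  intro ℓ hℓ hℓN A hA σ hσ x hx
  obtain ⟨J', _, _, sp, F, hsp, hF⟩ := h ℓ hℓ hℓN A hA
  obtain ⟨n, hn⟩ := hx
  refine hsp.injective_torsion _ ⟨n, ?_⟩ ?_
  · rw [smul_add, smul_sub, smul_nsmul_eq, smul_nsmul_eq, hn, smul_zero, smul_zero,
      smul_comm (p ^ n) (heckeGen ⟨ℓ, hℓ⟩) (σ • x), smul_nsmul_eq, hn, smul_zero, smul_zero,
      smul_comm (p ^ n) ℓ x, hn, smul_zero, sub_zero, add_zero]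
  · rw [map_add, map_sub, hsp.frobenius_comm σ hσ, hsp.hecke_comm, hsp.frobenius_comm σ hσ,
      map_nsmul]
    exact hF (sp x)

end General

local notation "Qbar" => AlgebraicClosure ℚ
local notation "Γℚ" => (AlgebraicClosure ℚ ≃ₐ[ℚ] AlgebraicClosure ℚ)

theorem smooth_JZero (N : ℕ)
    [AlgebraicCurve.HasPrincipalDivisors Qbar (modularFunctionFieldBar N)] :
    ResidualAttachment.Smooth (JZero N) :=
  fun x => GAL.Smooth.smooth_JZero N x

/-- `GalInput N p (JZero N)` from its constituents. -/
theorem galInput_JZero (N p : ℕ) [NeZero N]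
    [AlgebraicCurve.HasPrincipalDivisors Qbar (modularFunctionFieldBar N)] :
    letI := heckeModuleBar N
    ∀ [SMulCommClass Γℚ HeckeAlg (JZero N)],
      SpecializationExists (K := ℚ) (L := Qbar) N p (JZero N) →
      Finite {x : JZero N // p • x = 0} → SupportInput N p (JZero N) →
      GalInput N p (JZero N) := by
  letI := heckeModuleBar N
  intro _ h1 h2 h3
  exact
    { smooth := smooth_JZero N
      unramified := unramifiedOutside_of_specializationExists h1
      frobenius := frobeniusQuadratic_of_specializationExists h1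
      finite_torsion := h2
      support := h3 }

end Fermat.Agent.GAL.Specialize
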