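import Fermat.Agent.GAL.PeriodVanish
import Fermat.Prelude.Def_HeckeGalois_EichlerShimura

/-!
# From the Kummer-type injection `Hom_{par,ell}(Γ₀(N), ℤ/n) ↪ J` to the support statement

`HomSupport N J` is the interface with team JAN.  Main theorem: `dvd_of_homSupport`.
-/

set_option autoImplicit false

open UpperHalfPlane Matrix.SpecialLinearGroup CongruenceSubgroup
open scoped MatrixGroups
open ModularCurve
open Fermat.Agent.GAL.HeckeHom Fermat.Agent.GAL.PeriodLattice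

noncomputable section

namespace Fermat.Agent.GAL

/-- homomorphisms `Γ₀(N) → A` vanishing on all elements with `|trace| ≤ 2`
(parabolic and elliptic elements and `±1`). -/
def parEll (N : ℕ) (A : Type*) [AddCommGroup A] : AddSubgroup (Additive (Gamma0 N) →+ A) where
  carrier := {φ | ∀ γ : Gamma0 N,
    ((γ : SL(2, ℤ)) : Matrix (Fin 2) (Fin 2) ℤ).trace ^ 2 ≤ 4 → φ (Additive.ofMul γ) = 0}
  zero_mem' := fun _ _ => rfl
  add_mem' := fun {φ ψ} hφ hψ γ h => by
    rw [AddMonoidHom.add_apply, hφ γ h, hψ γ h, add_zero]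
  neg_mem' := fun {φ} hφ γ h => by
    rw [AddMonoidHom.neg_apply, hφ γ h, neg_zero]

/-- **The interface JAN → GAL.**  For each `n > 0` there is an injective homomorphism from the
group of parabolic-and-elliptic-trivial homomorphisms `Γ₀(N) → ℤ/n` to `J`, which is equivariant
for `T_ℓ`, `ℓ ∤ N`. -/
def HomSupport (N : ℕ) (J : Type*) [AddCommGroup J] [Module HeckeAlg J] : Prop :=
  ∀ n : ℕ, 0 < n → ∃ Φ : parEll N (ZMod n) →+ J, Function.Injective Φ ∧
    ∀ (ℓ : ℕ) (hℓ : ℓ.Prime) (hℓN : ¬ ℓ ∣ N) (φ ψ : parEll N (ZMod n)),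
      (ψ : Additive (Gamma0 N) →+ ZMod n) = heckeHom hℓ hℓN φ →
        Φ ψ = heckeGen ⟨ℓ, hℓ⟩ • Φ φ

variable {N : ℕ} [NeZero N]

/-- periods vanish on parabolic and elliptic elements -/
theorem comp_perHom_mem {A : Type*} [AddCommGroup A]
    (ψ : perLat N →+ A) : (ψ.comp (perHom N).rangeRestrict : Additive (Gamma0 N) →+ A) ∈ parEll N A := by
  intro γ h
  have h1 : (perHom N).rangeRestrict (Additive.ofMul γ) = 0 := Subtype.ext (perFun_eq_zero h)
  exact (congrArg ψ h1).trans (map_zero ψ)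

/-- elements of the Hecke algebra away from the level preserve the period lattice. -/
theorem perLat_stable {S : Set ℕ} (hNS : ∀ q : ℕ, q.Prime → q ∣ N → q ∈ S)
    {t : Module.End ℂ (CuspForm (Gamma0 N) 2)} (ht : t ∈ CuspForm.heckeAlgebra N 2 S) :
    ∀ φ ∈ perLat N, φ ∘ₗ t ∈ perLat N := by
  induction ht using Algebra.adjoin_induction with
  | mem x hx =>
    rcases hx with ⟨ℓ, hℓ, hℓN, -, rfl⟩ | ⟨q, hqN, hq, hqS, rfl⟩
    · rintro _ ⟨γ, rfl⟩
      rw [perHom_comp_heckeTLin]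
      obtain ⟨γ, rfl⟩ := Additive.ofMul.surjective γ
      rw [heckeHom_apply]
      exact Submodule.sum_mem _ fun x _ => ⟨_, rfl⟩
    · exact absurd (hNS q hq hqN) hqS
  | algebraMap r =>
    intro φ hφ
    have : φ ∘ₗ (algebraMap ℤ (Module.End ℂ (CuspForm (Gamma0 N) 2)) r) = r • φ := by
      ext f
      simp
    rw [this]
    exact Submodule.smul_mem _ _ hφ
  | add x y _ _ hx hy =>
    intro φ hφ
    rw [LinearMap.comp_add]
    exact add_mem (hx φ hφ) (hy φ hφ)
  | mul x y _ _ hx hy =>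
    intro φ hφ
    have : φ ∘ₗ (x * y) = (φ ∘ₗ x) ∘ₗ y := rfl
    rw [this]
    exact hy _ (hx φ hφ)

/-- the action of the Hecke algebra on the period lattice -/
def actLat {S : Set ℕ} (hNS : ∀ q : ℕ, q.Prime → q ∣ N → q ∈ S) :
    CuspForm.heckeAlgebra N 2 S →+* Module.End ℤ (perLat N) where
  toFun t :=
    { toFun := fun φ => ⟨φ.1 ∘ₗ t.1, perLat_stable hNS t.2 _ φ.2⟩
      map_add' := fun φ ψ => Subtype.ext (LinearMap.add_comp _ _ _)
      map_smul' := fun c φ => Subtype.ext (by ext f; simp) }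
  map_zero' := by
    ext φ f
    show φ.1 ((0 : Module.End ℂ (CuspForm (Gamma0 N) 2)) f) = 0
    rw [LinearMap.zero_apply, map_zero]
  map_one' := by
    ext φ f
    rfl
  map_add' a b := by
    ext φ f
    show φ.1 ((a.1 + b.1) f) = φ.1 (a.1 f) + φ.1 (b.1 f)
    rw [LinearMap.add_apply, map_add]
  map_mul' a b := by
    ext φ f
    show φ.1 ((a * b).1 f) = φ.1 ((b.1 * a.1) f)
    have h : a * b = b * a := mul_comm a b
    rw [h]
    rfl

theorem coe_actLat {S : Set ℕ} (hNS : ∀ q : ℕ, q.Prime → q ∣ N → q ∈ S)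
    (t : CuspForm.heckeAlgebra N 2 S) (φ : perLat N) :
    ((actLat hNS t φ : perLat N) : CuspForm (Gamma0 N) 2 →ₗ[ℂ] ℂ) = φ.1 ∘ₗ t.1 := rfl

theorem actLat_injective {S : Set ℕ} (hNS : ∀ q : ℕ, q.Prime → q ∣ N → q ∈ S) :
    Function.Injective (actLat (N := N) hNS) := by
  rw [injective_iff_map_eq_zero]
  intro t ht
  apply Subtype.ext
  refine LinearMap.ext fun f => ?_
  show t.1 f = 0
  apply eq_zero_of_perHom
  intro γ
  have h := congrArg (fun b : Module.End ℤ (perLat N) =>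
    ((b ⟨perHom N γ, ⟨γ, rfl⟩⟩ : perLat N) : CuspForm (Gamma0 N) 2 →ₗ[ℂ] ℂ) f) ht
  exact h

/-- polynomials in `T_ℓ`, `ℓ ∉ S`, as elements of the Hecke algebra -/
def evalT {S : Set ℕ} (hNS : ∀ q : ℕ, q.Prime → q ∣ N → q ∈ S) :
    MvPolynomial {ℓ : Nat.Primes // (ℓ : ℕ) ∉ S} ℤ →+* CuspForm.heckeAlgebra N 2 S :=
  MvPolynomial.eval₂Hom (Int.castRingHom _) fun ℓ =>
    CuspForm.heckeAlgebra.T ℓ.1.2 (fun h => ℓ.2 (hNS _ ℓ.1.2 h)) ℓ.2

theorem evalT_X {S : Set ℕ} (hNS : ∀ q : ℕ, q.Prime → q ∣ N → q ∈ S)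
    (ℓ : {ℓ : Nat.Primes // (ℓ : ℕ) ∉ S}) :
    evalT hNS (MvPolynomial.X ℓ) =
      CuspForm.heckeAlgebra.T ℓ.1.2 (fun h => ℓ.2 (hNS _ ℓ.1.2 h)) ℓ.2 :=
  MvPolynomial.eval₂Hom_X' _ _ _

theorem evalT_C {S : Set ℕ} (hNS : ∀ q : ℕ, q.Prime → q ∣ N → q ∈ S) (c : ℤ) :
    evalT hNS (MvPolynomial.C c) = (c : CuspForm.heckeAlgebra N 2 S) := by
  rw [evalT, MvPolynomial.eval₂Hom_C]
  rfl

/-- the transfer of a homomorphism factoring through the period lattice -/
theorem heckeHom_comp_rangeRestrict {ℓ : ℕ} (hℓ : ℓ.Prime) (hℓN : ¬ ℓ ∣ N) {S : Set ℕ}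
    (hNS : ∀ q : ℕ, q.Prime → q ∣ N → q ∈ S) (hℓS : ℓ ∉ S)
    {A : Type*} [AddCommGroup A] (ψ : perLat N →+ A) :
    heckeHom hℓ hℓN (ψ.comp (perHom N).rangeRestrict) =
      (ψ.comp (actLat hNS (CuspForm.heckeAlgebra.T hℓ hℓN hℓS)).toAddMonoidHom).comp
        (perHom N).rangeRestrict := by
  refine AddMonoidHom.ext fun γ => ?_
  have h1 : ((actLat hNS (CuspForm.heckeAlgebra.T hℓ hℓN hℓS)) ((perHom N).rangeRestrict γ)) =
      heckeHom hℓ hℓN (perHom N).rangeRestrict γ := by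
    apply Subtype.ext
    have h2 : ((heckeHom hℓ hℓN (perHom N).rangeRestrict γ : (perHom N).range) :
        CuspForm (Gamma0 N) 2 →ₗ[ℂ] ℂ) = heckeHom hℓ hℓN (perHom N) γ :=
      (DFunLike.congr_fun (heckeHom_comp hℓ hℓN (perHom N).range.subtype
        (perHom N).rangeRestrict) γ).symm
    refine Eq.trans ?_ h2.symm
    exact perHom_comp_heckeTLin hℓ hℓN γ
  have h3 := DFunLike.congr_fun (heckeHom_comp hℓ hℓN (A := (perHom N).range) ψ
    (perHom N).rangeRestrict) γ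
  refine h3.trans ?_
  show ψ _ = ψ _
  exact congrArg ψ h1.symm

section main

variable {J : Type*} [AddCommGroup J] [Module HeckeAlg J]

/-- equivariance of `Φ` for all polynomials in the `T_ℓ`. -/
theorem map_actLat {S : Set ℕ} (hNS : ∀ q : ℕ, q.Prime → q ∣ N → q ∈ S) {n : ℕ}
    (Φ : parEll N (ZMod n) →+ J)
    (hΦ : ∀ (ℓ : ℕ) (hℓ : ℓ.Prime) (hℓN : ¬ ℓ ∣ N) (φ ψ : parEll N (ZMod n)),
      (ψ : Additive (Gamma0 N) →+ ZMod n) = heckeHom hℓ hℓN φ →
        Φ ψ = heckeGen ⟨ℓ, hℓ⟩ • Φ φ)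
    (a : MvPolynomial {ℓ : Nat.Primes // (ℓ : ℕ) ∉ S} ℤ) :
    ∀ ψ : perLat N →+ ZMod n,
      Φ ⟨(ψ.comp (actLat hNS (evalT hNS a)).toAddMonoidHom).comp (perHom N).rangeRestrict,
        comp_perHom_mem _⟩ =
      (MvPolynomial.rename Subtype.val a : HeckeAlg) •
        Φ ⟨ψ.comp (perHom N).rangeRestrict, comp_perHom_mem _⟩ := by
  induction a using MvPolynomial.induction_on with
  | C c =>
    intro ψ
    rw [evalT_C, MvPolynomial.rename_C]
    have h1 : (MvPolynomial.C c : HeckeAlg) = (c : HeckeAlg) := by simp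
    rw [h1, Int.cast_smul_eq_zsmul, ← map_zsmul]
    congr 1
    apply Subtype.ext
    refine AddMonoidHom.ext fun γ => ?_
    show ψ _ = c • ψ _
    rw [← map_zsmul]
    congr 1
    rw [map_intCast]
    rfl
  | add p q hp hq =>
    intro ψ
    have h0 : (MvPolynomial.rename Subtype.val (p + q) : HeckeAlg) =
        MvPolynomial.rename Subtype.val p + MvPolynomial.rename Subtype.val q := map_add _ _ _
    rw [h0, _root_.add_smul, ← hp ψ, ← hq ψ, ← map_add]
    congr 1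
    apply Subtype.ext
    refine AddMonoidHom.ext fun γ => ?_
    show ψ _ = ψ _ + ψ _
    rw [← map_add]
    congr 1
    rw [map_add, map_add]
    rfl
  | mul_X p ℓ hp =>
    intro ψ
    have hℓN : ¬ (ℓ.1 : ℕ) ∣ N := fun h => ℓ.2 (hNS _ ℓ.1.2 h)
    have h1 := hΦ ℓ.1 ℓ.1.2 hℓN
      ⟨(ψ.comp (actLat hNS (evalT hNS p)).toAddMonoidHom).comp (perHom N).rangeRestrict,
        comp_perHom_mem _⟩
      ⟨(ψ.comp (actLat hNS (evalT hNS (p * MvPolynomial.X ℓ))).toAddMonoidHom).comp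
        (perHom N).rangeRestrict, comp_perHom_mem _⟩ (by
        rw [heckeHom_comp_rangeRestrict ℓ.1.2 hℓN hNS ℓ.2]
        refine AddMonoidHom.ext fun γ => ?_
        show ψ _ = ψ _
        congr 1
        rw [map_mul, map_mul, evalT_X]
        rfl)
    rw [h1, hp ψ, ← mul_smul]
    congr 1
    rw [map_mul, MvPolynomial.rename_X, mul_comm]
    rfl

/-- an endomorphism of a finite free `ℤ`-module all of whose reductions to functionals mod `m`
vanish is divisible by `m`. -/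
theorem exists_eq_smul {P : Type*} [AddCommGroup P] [Module.Finite ℤ P] [Module.Free ℤ P]
    {m : ℕ} (b : Module.End ℤ P)
    (h : ∀ ψ : P →+ ZMod m, ψ.comp b.toAddMonoidHom = 0) :
    ∃ c : Module.End ℤ P, b = (m : ℤ) • c := by
  classical
  let B := Module.Free.chooseBasis ℤ P
  have hdvd : ∀ x i, (m : ℤ) ∣ B.repr (b x) i := by
    intro x i
    have h1 := DFunLike.congr_fun (h ((Int.castAddHom (ZMod m)).comp
      (B.coord i).toAddMonoidHom)) x
    have h2 : ((B.repr (b x) i : ℤ) : ZMod m) = 0 := h1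
    exact (ZMod.intCast_zmod_eq_zero_iff_dvd _ _).mp h2
  have hex : ∀ j, ∃ y : P, b (B j) = (m : ℤ) • y := by
    intro j
    choose q hq using hdvd (B j)
    refine ⟨B.equivFun.symm q, ?_⟩
    apply B.equivFun.injective
    rw [map_smul, LinearEquiv.apply_symm_apply]
    funext i
    rw [Module.Basis.equivFun_apply, hq i]
    rfl
  choose y hy using hex
  refine ⟨B.constr ℤ y, ?_⟩
  refine B.ext fun j => ?_
  rw [LinearMap.smul_apply, Module.Basis.constr_basis, hy]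

/-- **Support theorem, lattice form**: a polynomial in the `T_ℓ` killing `J[m]` acts on the
period lattice as `m` times an endomorphism. -/
theorem exists_end_of_homSupport (hJ : HomSupport N J) {S : Set ℕ}
    (hNS : ∀ q : ℕ, q.Prime → q ∣ N → q ∈ S) {m : ℕ} (hm : 0 < m)
    (a : MvPolynomial {ℓ : Nat.Primes // (ℓ : ℕ) ∉ S} ℤ)
    (ha : ∀ x : J, m • x = 0 → (MvPolynomial.rename Subtype.val a : HeckeAlg) • x = 0) :
    ∃ b : Module.End ℤ (perLat N), actLat hNS (evalT hNS a) = (m : ℤ) • b := by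
  have hmne : NeZero m := ⟨hm.ne'⟩
  obtain ⟨Φ, hinj, hΦ⟩ := hJ m hm
  have hfree : Module.Free ℤ (perLat N) := inferInstance
  set t := evalT hNS a with ht
  -- all functionals kill `actLat t`
  have hkill : ∀ ψ : perLat N →+ ZMod m, ψ.comp (actLat hNS t).toAddMonoidHom = 0 := by
    intro ψ
    have h1 := map_actLat hNS Φ hΦ a ψ
    have h2 : m • Φ ⟨ψ.comp (perHom N).rangeRestrict, comp_perHom_mem _⟩ = 0 := by
      rw [← map_nsmul]
      have : m • (⟨ψ.comp (perHom N).rangeRestrict, comp_perHom_mem _⟩ : parEll N (ZMod m)) = 0 := by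
        apply Subtype.ext
        refine AddMonoidHom.ext fun γ => ?_
        show m • ψ _ = 0
        rw [nsmul_eq_mul, ZMod.natCast_self, zero_mul]
      rw [this, map_zero]
    rw [ha _ h2, ← map_zero Φ] at h1
    have h3 := congrArg Subtype.val (hinj h1)
    refine AddMonoidHom.ext fun x => ?_
    obtain ⟨γ, hγ⟩ := (perHom N).rangeRestrict_surjective x
    rw [← hγ]
    exact DFunLike.congr_fun h3 γ
  exact exists_eq_smul (actLat hNS t) hkill

/-- **Support theorem**: an element of the Hecke algebra killing `J[m]` is divisible by `m` at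
every integral point of the Hecke algebra. -/
theorem dvd_of_homSupport (hJ : HomSupport N J) {S : Set ℕ}
    (hNS : ∀ q : ℕ, q.Prime → q ∣ N → q ∈ S)
    {𝒪 : Type*} [CommRing 𝒪] [IsDomain 𝒪] [IsIntegrallyClosed 𝒪] [CharZero 𝒪]
    (χ : CuspForm.heckeAlgebra N 2 S →+* 𝒪) {m : ℕ} (hm : 0 < m)
    (a : MvPolynomial {ℓ : Nat.Primes // (ℓ : ℕ) ∉ S} ℤ)
    (ha : ∀ x : J, m • x = 0 → (MvPolynomial.rename Subtype.val a : HeckeAlg) • x = 0) :
    (m : 𝒪) ∣ χ (evalT hNS a) := by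
  obtain ⟨b, hb⟩ := exists_end_of_homSupport hJ hNS hm a ha
  set t := evalT hNS a with ht
  -- Cayley–Hamilton
  have hbint : IsIntegral ℤ b := Algebra.IsIntegral.isIntegral b
  obtain ⟨q, hqmonic, hq⟩ := hbint
  have h1 : Polynomial.aeval (actLat hNS t) (Polynomial.scaleRoots q (m : ℤ)) = 0 := by
    have h2 : actLat hNS t = algebraMap ℤ (Module.End ℤ (perLat N)) (m : ℤ) * b := by
      rw [hb, Algebra.smul_def]
    rw [h2]
    exact Polynomial.scaleRoots_aeval_eq_zero hq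
  have h2 : Polynomial.aeval t (Polynomial.scaleRoots q (m : ℤ)) = 0 := by
    apply actLat_injective hNS
    rw [map_zero, ← h1]
    have := Polynomial.hom_eval₂ (Polynomial.scaleRoots q (m : ℤ))
      (algebraMap ℤ (CuspForm.heckeAlgebra N 2 S)) (actLat hNS) t
    rw [Polynomial.aeval_def, this, Polynomial.aeval_def]
    congr 1
    exact Subsingleton.elim _ _
  have h3 : Polynomial.eval₂ (Int.castRingHom 𝒪) (χ t) (Polynomial.scaleRoots q (m : ℤ)) = 0 := by
    have := Polynomial.hom_eval₂ (Polynomial.scaleRoots q (m : ℤ))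
      (algebraMap ℤ (CuspForm.heckeAlgebra N 2 S)) χ t
    rw [← Polynomial.aeval_def, h2, map_zero] at this
    rw [this]
    congr 1
    exact Subsingleton.elim _ _
  -- in the fraction field
  let K := FractionRing 𝒪
  have hmK : (algebraMap 𝒪 K) (m : 𝒪) ≠ 0 := by
    rw [Ne, IsFractionRing.to_map_eq_zero_iff]
    exact_mod_cast hm.ne'
  set y : K := algebraMap 𝒪 K (χ t) / algebraMap 𝒪 K (m : 𝒪) with hy
  have hyint : IsIntegral ℤ y := by
    refine ⟨q, hqmonic, ?_⟩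
    have h4 : Polynomial.eval₂ (algebraMap ℤ K) (algebraMap 𝒪 K (χ t))
        (Polynomial.scaleRoots q (m : ℤ)) = 0 := by
      have := Polynomial.hom_eval₂ (Polynomial.scaleRoots q (m : ℤ)) (Int.castRingHom 𝒪)
        (algebraMap 𝒪 K) (χ t)
      rw [h3, map_zero] at this
      rw [this]
      congr 1
    have h5 : algebraMap 𝒪 K (χ t) = algebraMap ℤ K (m : ℤ) * y := by
      have : algebraMap ℤ K (m : ℤ) = algebraMap 𝒪 K (m : 𝒪) := by simp
      rw [this, hy]
      exact (mul_div_cancel₀ _ hmK).symm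
    rw [h5, Polynomial.scaleRoots_eval₂_mul] at h4
    have h6 : (algebraMap ℤ K) (m : ℤ) ^ q.natDegree ≠ 0 := by
      apply pow_ne_zero
      have : algebraMap ℤ K (m : ℤ) = algebraMap 𝒪 K (m : 𝒪) := by simp
      rw [this]
      exact hmK
    exact (mul_eq_zero.mp h4).resolve_left h6
  have hyint2 : IsIntegral 𝒪 y := hyint.tower_top
  obtain ⟨z, hz⟩ := IsIntegrallyClosed.isIntegral_iff.mp hyint2
  refine ⟨z, ?_⟩
  apply IsFractionRing.injective 𝒪 K
  rw [map_mul, hz, hy]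
  exact (mul_div_cancel₀ _ hmK).symm

/-- prime-power version -/
theorem pow_dvd_of_homSupport (hJ : HomSupport N J) {S : Set ℕ}
    (hNS : ∀ q : ℕ, q.Prime → q ∣ N → q ∈ S)
    {𝒪 : Type*} [CommRing 𝒪] [IsDomain 𝒪] [IsIntegrallyClosed 𝒪] [CharZero 𝒪]
    (χ : CuspForm.heckeAlgebra N 2 S →+* 𝒪) {p : ℕ} (hp : 0 < p) (n : ℕ)
    (a : MvPolynomial {ℓ : Nat.Primes // (ℓ : ℕ) ∉ S} ℤ)
    (ha : ∀ x : J, p ^ n • x = 0 → (MvPolynomial.rename Subtype.val a : HeckeAlg) • x = 0) :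
    (p : 𝒪) ^ n ∣ χ (evalT hNS a) := by
  have h := dvd_of_homSupport hJ hNS χ (m := p ^ n) (pow_pos hp n) a ha
  rwa [Nat.cast_pow] at h

end main

end Fermat.Agent.GAL
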